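import Fermat.Agent.FD.Main
import Fermat.Prelude.Def_EllipticCurve_FrobeniusTrace

/-!
# S37, piece FR: a Frobenius element for a GIVEN valuation ring of `ℚ̄` above `ℓ`
-/

set_option autoImplicit false

namespace Fermat.Agent.S37

open Fermat.Agent.S54

local notation "Qb" => AlgebraicClosure ℚ
local notation "Zb" => integralClosure ℤ (AlgebraicClosure ℚ)

/-- integral elements lie in every valuation ring. -/
theorem fr_coe_mem (A : ValuationSubring Qb) (y : Zb) : (y : Qb) ∈ A := by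
  have h1 : IsIntegral ℤ (y : Qb) := y.2
  have h2 : IsIntegral A (y : Qb) := h1.tower_top
  obtain ⟨z, hz⟩ := IsIntegrallyClosed.isIntegral_iff.mp h2
  exact hz ▸ z.2

/-- the inclusion `ℤ̄ → A`. -/
noncomputable def frIncl (A : ValuationSubring Qb) : Zb →+* A where
  toFun y := ⟨(y : Qb), fr_coe_mem A y⟩
  map_one' := rfl
  map_mul' _ _ := rfl
  map_zero' := rfl
  map_add' _ _ := rfl

/-- the centre of `A` on `ℤ̄`. -/
noncomputable def frCentre (A : ValuationSubring Qb) : Ideal Zb :=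
  (IsLocalRing.maximalIdeal A).comap (frIncl A)

instance (A : ValuationSubring Qb) : (frCentre A).IsPrime :=
  Ideal.comap_isPrime _ _

theorem mem_frCentre {A : ValuationSubring Qb} {y : Zb} :
    y ∈ frCentre A ↔ (y : Qb) ∈ A.nonunits := by
  rw [frCentre, Ideal.mem_comap, ← ValuationSubring.coe_mem_nonunits_iff]
  rfl

theorem fr_natCast_mem {A : ValuationSubring Qb} {ℓ : ℕ} (hA : A.LiesOverPrime ℓ) :
    (ℓ : Zb) ∈ frCentre A := by
  rw [mem_frCentre]
  simpa [ValuationSubring.LiesOverPrime] using hA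

theorem fr_isMaximal {A : ValuationSubring Qb} {ℓ : ℕ} (hℓ : ℓ.Prime) (hA : A.LiesOverPrime ℓ) :
    (frCentre A).IsMaximal := by
  have hP : (Ideal.span {(ℓ : ℤ)}).IsMaximal :=
    PrincipalIdealRing.isMaximal_of_irreducible (Nat.prime_iff_prime_int.mp hℓ).irreducible
  have hle : Ideal.span {(ℓ : ℤ)} ≤ (frCentre A).comap (algebraMap ℤ Zb) := by
    rw [Ideal.span_singleton_le_iff_mem, Ideal.mem_comap]
    simpa using fr_natCast_mem hA
  have heq : (frCentre A).comap (algebraMap ℤ Zb) = Ideal.span {(ℓ : ℤ)} :=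
    (hP.eq_of_le (Ideal.comap_ne_top _ (Ideal.IsPrime.ne_top inferInstance)) hle).symm
  exact Ideal.isMaximal_of_isIntegral_of_isMaximal_comap (R := ℤ) _ (heq ▸ hP)

/-- `A` is the localisation of `ℤ̄` at its centre. -/
theorem fr_eq_loc {A : ValuationSubring Qb} {ℓ : ℕ} (hℓ : ℓ.Prime) (hA : A.LiesOverPrime ℓ) :
    A = locValuationSubring ℓ hℓ (frCentre A) (fr_natCast_mem hA) := by
  have hle : ∀ x, x ∈ locValuationSubring ℓ hℓ (frCentre A) (fr_natCast_mem hA) → x ∈ A := by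
    rintro x ⟨b, s, hs, h⟩
    rw [mem_frCentre, ValuationSubring.mem_nonunits_iff_or, not_or, not_not] at hs
    have : x = (b : Qb) * (s : Qb)⁻¹ := by
      rw [← h, mul_assoc, mul_inv_cancel₀ hs.1, mul_one]
    rw [this]
    exact mul_mem (fr_coe_mem A b) hs.2
  ext x
  refine ⟨fun hx => ?_, hle x⟩
  rcases (locValuationSubring ℓ hℓ (frCentre A) (fr_natCast_mem hA)).mem_or_inv_mem x with h | h
  · exact h
  · -- `x⁻¹ = b / s`; `b ∉ Q` since otherwise `x⁻¹` is a nonunit of `A`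
    obtain ⟨b, s, hs, hbs⟩ := h
    by_cases hx0 : x = 0
    · rw [hx0]; exact zero_mem _
    refine ⟨s, b, fun hb => ?_, ?_⟩
    · -- `b = x⁻¹ s`, so `s = x b ∈ 𝔪_A`
      apply hs
      rw [mem_frCentre] at hb ⊢
      have : (s : Qb) = x * (b : Qb) := by
        rw [← hbs, ← mul_assoc, mul_inv_cancel₀ hx0, one_mul]
      rw [this]
      have h1 : (⟨(b : Qb), fr_coe_mem A b⟩ : A) ∈ IsLocalRing.maximalIdeal A := by
        rw [← ValuationSubring.coe_mem_nonunits_iff]; exact hb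
      have h2 := Ideal.mul_mem_left (IsLocalRing.maximalIdeal A) (⟨x, hx⟩ : A) h1
      rw [← ValuationSubring.coe_mem_nonunits_iff] at h2
      exact h2
    · rw [← hbs, ← mul_assoc, mul_inv_cancel₀ hx0, one_mul]

/-- **FR.**  A Frobenius element for a given valuation ring of `ℚ̄` above `ℓ`. -/
theorem exists_isFrobeniusAt (A : ValuationSubring (AlgebraicClosure ℚ)) {ℓ : ℕ} (hℓ : ℓ.Prime)
    (hA : A.LiesOverPrime ℓ) :
    ∃ σ : AlgebraicClosure ℚ ≃ₐ[ℚ] AlgebraicClosure ℚ, A.IsFrobeniusAt σ ℓ := by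
  obtain ⟨σ, hσQ, hσF⟩ := FD.TR.exists_frobenius_of_ideal ℓ hℓ (frCentre A) (fr_isMaximal hℓ hA)
    (fr_natCast_mem hA)
  refine ⟨σ, ?_⟩
  have h := FD.TR.isFrobeniusAt_loc ℓ hℓ (frCentre A) (fr_natCast_mem hA) σ hσQ hσF
  rw [← fr_eq_loc hℓ hA] at h
  exact h

end Fermat.Agent.S37
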