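import Fermat.Agent.S37.FFIdentity
import Fermat.Agent.S24.Expand
import Fermat.Agent.S20.CombIndex
import Fermat.Prelude.Def_ModularCurve_HeckeModule

set_option autoImplicit false
set_option linter.style.haveILetI false

namespace Fermat.Agent.S37.D1

open AlgebraicCurve ModularCurve IntermediateField Polynomial Fermat.Agent.S24 Fermat.Agent.S18

theorem finrank_adjoin_along {K F F' : Type*} [Field K] [Field F] [Field F'] [Algebra K F]
    [Algebra K F'] (φ : F →ₐ[K] F') (hF : IsFF K F) (hF' : IsFF K F') {y : F}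
    (hy : Transcendental K y) :
    Module.finrank K⟮φ y⟯ F' = Module.finrank K⟮y⟯ F * finrankAlong K φ := by
  letI := algebraAlong φ
  haveI := isScalarTower_along φ
  exact finrank_adjoin_algebraMap hF hF' hy

variable {N ℓ : ℕ} [NeZero N] [NeZero ℓ]

theorem finrankAlong_alpha (hℓ : ℓ.Prime) (hℓN : ¬ ℓ ∣ N) :
    finrankAlong Kb (heckeAlphaBar Kb N ℓ) = ℓ + 1 := by
  haveI : NeZero (N * ℓ) := ⟨mul_ne_zero (NeZero.ne N) (NeZero.ne ℓ)⟩
  have h1 := finrank_adjoin_along (heckeAlphaBar Kb N ℓ) (isFF_FN N)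
    (isFF_FN (N * ℓ)) (transcendental_jBar N)
  have h2 : heckeAlphaBar Kb N ℓ (jBar N) = jBar (N * ℓ) := Subtype.ext rfl
  rw [h2] at h1
  have e1 := (finrank_modularFunctionFieldBar (N * ℓ)).2
  have e2 := (finrank_modularFunctionFieldBar N).2
  rw [e1, e2] at h1
  have hcop : N.Coprime ℓ := ((Nat.Prime.coprime_iff_not_dvd hℓ).mpr hℓN).symm
  have h3 : dedekindPsi ℓ = ℓ + 1 := by
    have := Fermat.Agent.S20.dedekindPsi_prime_pow hℓ 0
    simpa using this
  rw [Fermat.Agent.S20.dedekindPsi_mul hcop, h3] at h1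
  have hpos : dedekindPsi N ≠ 0 := by
    intro h0
    rw [h0] at e2
    haveI := (finrank_modularFunctionFieldBar N).1
    exact (Module.finrank_pos (R := Kb⟮jBar N⟯) (M := modularFunctionFieldBar N)).ne' e2
  exact (Nat.eq_of_mul_eq_mul_left (Nat.pos_of_ne_zero hpos) h1).symm

end Fermat.Agent.S37.D1
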