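import Fermat.Agent.S24.Expand
import Fermat.Agent.S28.TowerFull
import Fermat.Prelude.Def_ModularCurve_HeckeModule

set_option autoImplicit false
set_option linter.style.haveILetI false

namespace Fermat.Agent.S37.D2

open AlgebraicCurve ModularCurve IntermediateField Polynomial Fermat.Agent.S24 Fermat.Agent.S28

theorem adjoin_eq_top_of {K F F' L : Type*} [Field K] [Field F] [Field F'] [Field L] [Algebra K F]
    [Algebra K F'] [Algebra K L] (φ : F →ₐ[K] F') (ι' : F' →ₐ[K] L) (θ : F')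
    (H : ∀ E : IntermediateField K L, (∀ f : F, ι' (φ f) ∈ E) → ι' θ ∈ E → ∀ z : F', ι' z ∈ E) :
    letI := algebraAlong φ
    IntermediateField.adjoin F {θ} = ⊤ := by
  letI := algebraAlong φ
  haveI := isScalarTower_along φ
  rw [eq_top_iff]
  intro z _
  have h := H (((IntermediateField.adjoin F {θ}).restrictScalars K).map ι')
    (fun f => ⟨φ f, (IntermediateField.adjoin F {θ}).algebraMap_mem f, rfl⟩)
    ⟨θ, IntermediateField.mem_adjoin_simple_self F θ, rfl⟩ z
  obtain ⟨z', hz', hzz⟩ := h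
  have : z' = z := ι'.injective hzz
  rw [← this]
  exact hz'

variable {N ℓ : ℕ} [NeZero N] [NeZero ℓ]

theorem FN_mul_le_of (hℓ : ℓ.Prime) (E : IntermediateField Kb (LaurentSeries Kb)) (h1 : FN N ≤ E)
    (h2 : qExpand Kb (N * ℓ) (jqModC Kb) ∈ E) : FN (N * ℓ) ≤ E := by
  have hN0 : N ≠ 0 := NeZero.ne N
  have hNℓ : N * ℓ ≠ 0 := mul_ne_zero hN0 (NeZero.ne ℓ)
  haveI : NeZero (N * ℓ) := ⟨hNℓ⟩
  have hyp := towerDegree_fieldHyp Kb (N * ℓ) (Nat.cast_ne_zero.mpr hNℓ)
  have hrange : ∀ x : LaurentSeries Kb, x ∈ Set.range E.val ↔ x ∈ E := by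
    intro x
    constructor
    · rintro ⟨y, rfl⟩; exact y.2
    · intro hx; exact ⟨⟨x, hx⟩, rfl⟩
  have key := full_step E.val hN0 hℓ (hyp.1 ℓ hℓ (Dvd.intro_left N rfl))
    (fun r hr hrN => hyp.1 r hr (hrN.trans (Dvd.intro ℓ rfl)))
    (fun m hm => by
      rw [hrange]
      apply h1
      show _ ∈ modularFunctionFieldBar N
      rw [modularFunctionFieldBar_eq]
      exact jce_one_mem_full Kb (fun h0 => hN0 (by rw [h0] at hm; exact Nat.eq_zero_of_zero_dvd hm)) hm)
    (by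
      rw [hrange, jce_one_eq, mul_comm, qE_apply]
      exact h2)
  show modularFunctionFieldBar (N * ℓ) ≤ E
  rw [modularFunctionFieldBar_eq, modularFunctionFieldFullC, adjoin_le_iff]
  rintro x ⟨d, hne, hdvd, rfl⟩
  haveI := hne
  have := key d (by rw [mul_comm]; exact hdvd)
  rw [hrange, jce_one_eq, qE_apply] at this
  exact this

/-- `j(q^N)` as an element of `F_N`. -/
noncomputable def jTop (N : ℕ) [NeZero N] : FN N :=
  ⟨qExpand Kb N (jqModC Kb), by
    show _ ∈ modularFunctionFieldBar N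
    rw [modularFunctionFieldBar_eq]
    have := jce_one_mem_full Kb (NeZero.ne N) (dvd_refl N)
    rwa [jce_one_eq, qE_apply] at this⟩

theorem exists_adjoin_beta_eq_top (hℓ : ℓ.Prime) :
    ∃ g₀ : FN N,
      letI := algebraAlong (heckeAlphaBar Kb N ℓ)
      IntermediateField.adjoin (FN N) {heckeBetaBar Kb N ℓ g₀} = ⊤ := by
  refine ⟨jTop N, ?_⟩
  haveI : NeZero (N * ℓ) := ⟨mul_ne_zero (NeZero.ne N) (NeZero.ne ℓ)⟩
  refine adjoin_eq_top_of (heckeAlphaBar Kb N ℓ) (FN (N * ℓ)).val _ fun E hE hθ z => ?_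
  refine FN_mul_le_of hℓ E (fun f hf => hE ⟨f, hf⟩) ?_ z.2
  have : ((FN (N * ℓ)).val (heckeBetaBar Kb N ℓ (jTop N)) : LaurentSeries Kb) =
      qExpand Kb (N * ℓ) (jqModC Kb) := by
    show qExpand Kb ℓ (qExpand Kb N (jqModC Kb)) = _
    rw [qExpand_qExpand, ← qE_apply, ← qE_apply, mul_comm]
  rw [← this]
  exact hθ

end Fermat.Agent.S37.D2
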