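import Fermat.Agent.S37.HeckeInputs
import Fermat.Agent.S37.MopMem

/-!
# S37, piece NM-F: from generators to all elements in `N_α (β g) = Mop g`
-/

set_option autoImplicit false

namespace Fermat.Agent.S37.NMF

open AlgebraicCurve ModularCurve IntermediateField Polynomial Fermat.Agent.S24 Fermat.Agent.S18
  Fermat.Agent.GR

/-- **NM-F1.**  For `a, b ∈ F'` with `F(a, b) = F'`, `F(a + c b) = F'` for some constant `c ∈ K`. -/
theorem exists_adjoin_add_smul_eq_top {K F F' : Type*} [Field K] [Field F] [Field F'] [Algebra K F]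
    [Algebra K F'] [Algebra F F'] [IsScalarTower K F F'] [Infinite K] [FiniteDimensional F F']
    [Algebra.IsSeparable F F'] (a b : F') (h : IntermediateField.adjoin F {a, b} = ⊤) :
    ∃ c : K, IntermediateField.adjoin F {a + algebraMap K F' c * b} = ⊤ := by
  have hfin : Finite (IntermediateField F F') :=
    Field.finite_intermediateField_of_exists_primitive_element F F'
      (Field.exists_primitive_element F F')
  obtain ⟨c, c', hne, heq⟩ := Finite.exists_ne_map_eq_of_infinite
    (fun c : K => IntermediateField.adjoin F {a + algebraMap K F' c * b})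
  have heq : IntermediateField.adjoin F {a + algebraMap K F' c * b} = IntermediateField.adjoin F {a + algebraMap K F' c' * b} := heq
  refine ⟨c, ?_⟩
  set E := IntermediateField.adjoin F {a + algebraMap K F' c * b} with hE
  have h1 : a + algebraMap K F' c * b ∈ E := IntermediateField.mem_adjoin_simple_self F _
  have h2 : a + algebraMap K F' c' * b ∈ E := by
    rw [heq]; exact IntermediateField.mem_adjoin_simple_self F _
  have hconst : ∀ d : K, algebraMap K F' d ∈ E := by
    intro d
    rw [IsScalarTower.algebraMap_apply K F F']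
    exact E.algebraMap_mem _
  have hd : algebraMap K F' (c - c') ≠ 0 := (_root_.map_ne_zero _).2 (sub_ne_zero.2 hne)
  have h3 : algebraMap K F' (c - c') * b ∈ E := by
    have := sub_mem h1 h2
    have e : a + algebraMap K F' c * b - (a + algebraMap K F' c' * b)
        = algebraMap K F' (c - c') * b := by rw [map_sub]; ring
    rwa [e] at this
  have hb : b ∈ E := by
    have := mul_mem (inv_mem (hconst (c - c'))) h3
    rwa [← mul_assoc, inv_mul_cancel₀ hd, one_mul] at this
  have ha : a ∈ E := by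
    have := sub_mem h1 (mul_mem (hconst c) hb)
    rwa [add_sub_cancel_right] at this
  rw [eq_top_iff, ← h, IntermediateField.adjoin_le_iff]
  rintro x (rfl | rfl)
  · exact ha
  · exact hb

variable {N ℓ : ℕ} [NeZero N] [NeZero ℓ]

/-- **NM.**  `g = 0` is trivial.  For `g ≠ 0`: `g₀` from D2'; `c` from NM-F1 with `a = β (g g₀)`, `b = β g`:
`g₁ := g (g₀ + c)` and `g₂ := g₀ + c` are generators, `g = g₁ / g₂`; both sides are multiplicative. -/
theorem coe_normAlpha_beta {ζ : Kbˣ} (hζ : IsPrimitiveRoot ζ ℓ)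
    (hD2 : ∃ g₀ : FN N,
      letI := algebraAlong (heckeAlphaBar Kb N ℓ)
      IntermediateField.adjoin (FN N) {heckeBetaBar Kb N ℓ g₀} = ⊤)
    (hG : ∀ g : FN N,
      (letI := algebraAlong (heckeAlphaBar Kb N ℓ)
       IntermediateField.adjoin (FN N) {heckeBetaBar Kb N ℓ g} = ⊤) →
      ((normAlpha N ℓ (heckeBetaBar Kb N ℓ g) : FN N) : LaurentSeries Kb) =
        Mop ζ ℓ (g : LaurentSeries Kb))
    (g : FN N) :
    ((normAlpha N ℓ (heckeBetaBar Kb N ℓ g) : FN N) : LaurentSeries Kb) =
      Mop ζ ℓ (g : LaurentSeries Kb) := by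
  let _ := algebraAlong (heckeAlphaBar Kb N ℓ)
  have := isScalarTower_along (heckeAlphaBar Kb N ℓ)
  have : Module.Finite (FN N) (FN (N * ℓ)) := finiteAlong_alpha N ℓ
  set β := heckeBetaBar Kb N ℓ with hβ
  have hnorm : ∀ y : FN (N * ℓ), normAlpha N ℓ y = Algebra.norm (FN N) y := fun _ => rfl
  by_cases hg : g = 0
  · subst hg
    rw [map_zero, hnorm, Algebra.norm_zero]
    simp [Mop]
  obtain ⟨g₀, hg₀⟩ := hD2
  have hβg : β g ≠ 0 := (_root_.map_ne_zero β.toRingHom).2 hg
  have hab : IntermediateField.adjoin (FN N) {β (g * g₀), β g} = ⊤ := by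
    rw [eq_top_iff, ← hg₀, IntermediateField.adjoin_le_iff]
    rintro x rfl
    have h1 : β (g * g₀) ∈ IntermediateField.adjoin (FN N) {β (g * g₀), β g} :=
      IntermediateField.subset_adjoin _ _ (by simp)
    have h2 : β g ∈ IntermediateField.adjoin (FN N) {β (g * g₀), β g} :=
      IntermediateField.subset_adjoin _ _ (by simp)
    have h3 := mul_mem (inv_mem h2) h1
    have e : (β g)⁻¹ * β (g * g₀) = β g₀ := by
      rw [map_mul, ← mul_assoc, inv_mul_cancel₀ hβg, one_mul]
    rw [e] at h3
    exact h3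
  obtain ⟨c, hc⟩ := exists_adjoin_add_smul_eq_top (K := Kb) _ _ hab
  set g₂ : FN N := g₀ + algebraMap Kb (FN N) c with hg₂
  have hβ2 : β g₂ = β g₀ + algebraMap Kb (FN (N * ℓ)) c := by
    rw [hg₂, map_add, AlgHom.commutes]
  have hβ1 : β (g * g₂) = β (g * g₀) + algebraMap Kb (FN (N * ℓ)) c * β g := by
    rw [map_mul, hβ2, map_mul]; ring
  have hgen1 : IntermediateField.adjoin (FN N) {β (g * g₂)} = ⊤ := by rw [hβ1]; exact hc
  have hgen2 : IntermediateField.adjoin (FN N) {β g₂} = ⊤ := by
    rw [eq_top_iff, ← hg₀, IntermediateField.adjoin_le_iff]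
    rintro x rfl
    have h1 : β g₂ ∈ IntermediateField.adjoin (FN N) {β g₂} :=
      IntermediateField.mem_adjoin_simple_self _ _
    have h2 : algebraMap Kb (FN (N * ℓ)) c ∈ IntermediateField.adjoin (FN N) {β g₂} := by
      rw [IsScalarTower.algebraMap_apply Kb (FN N) (FN (N * ℓ))]
      exact IntermediateField.algebraMap_mem _ _
    have h3 := sub_mem h1 h2
    have e : β g₂ - algebraMap Kb (FN (N * ℓ)) c = β g₀ := by
      rw [hβ2, add_sub_cancel_right]
    rw [e] at h3
    exact h3
  by_cases hg2 : g₂ = 0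
  · apply hG
    rw [eq_top_iff, ← hgen2, hg2, map_zero, IntermediateField.adjoin_le_iff]
    rintro x rfl
    exact zero_mem _
  have e1 := hG _ hgen1
  have e2 := hG _ hgen2
  have hβg2 : β g₂ ≠ 0 := (_root_.map_ne_zero β.toRingHom).2 hg2
  have hn2 : normAlpha N ℓ (β g₂) ≠ 0 := by
    rw [hnorm]
    exact Algebra.norm_ne_zero_iff.2 hβg2
  have hn2' : ((normAlpha N ℓ (β g₂) : FN N) : LaurentSeries Kb) ≠ 0 := by
    intro h0
    exact hn2 (Subtype.ext h0)
  rw [map_mul, map_mul] at e1
  have e3 : ((normAlpha N ℓ (β g) * normAlpha N ℓ (β g₂) : FN N) : LaurentSeries Kb)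
      = ((normAlpha N ℓ (β g) : FN N) : LaurentSeries Kb)
        * ((normAlpha N ℓ (β g₂) : FN N) : LaurentSeries Kb) := rfl
  have e4 : ((g * g₂ : FN N) : LaurentSeries Kb)
      = (g : LaurentSeries Kb) * (g₂ : LaurentSeries Kb) := rfl
  rw [e3, e4, Mop_mul hζ, ← e2] at e1
  exact mul_right_cancel₀ hn2' e1

end Fermat.Agent.S37.NMF
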