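import Fermat.Agent.S37.HeckeInputs
import Fermat.Agent.S37.MopMem
import Fermat.Agent.S37.D1

/-!
# S37, piece NM-G: the norm of a generator is `± P(0)` for a monic polynomial `P` of degree `[F' : F]` killing it
-/

set_option autoImplicit false
set_option linter.style.haveILetI false

namespace Fermat.Agent.S37.NMG

open AlgebraicCurve ModularCurve IntermediateField Polynomial Fermat.Agent.S24 Fermat.Agent.S18
  Fermat.Agent.GR

/-- general statement. -/
theorem norm_eq_of_adjoin_eq_top {F F' : Type*} [Field F] [Field F'] [Algebra F F'] {θ : F'}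
    (hθ : IntermediateField.adjoin F {θ} = ⊤) {P : F[X]} (hP : P.Monic)
    (hdeg : P.natDegree = Module.finrank F F') (hroot : aeval θ P = 0) :
    Algebra.norm F θ = (-1) ^ Module.finrank F F' * P.coeff 0 := by
  have hint : IsIntegral F θ := ⟨P, hP, hroot⟩
  have h1 : (minpoly F θ).natDegree = Module.finrank F F' := by
    rw [← IntermediateField.adjoin.finrank hint, hθ, IntermediateField.finrank_top']
  have h2 : P = minpoly F θ :=
    Polynomial.eq_of_monic_of_dvd_of_natDegree_le (minpoly.monic hint) hP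
      (minpoly.dvd F θ hroot) (by rw [h1, hdeg])
  have h3 : Module.finrank F⟮θ⟯ F' = 1 := by
    rw [hθ]; exact IntermediateField.finrank_top
  have h4 := Algebra.PowerBasis.norm_gen_eq_coeff_zero_minpoly (adjoin.powerBasis hint)
  rw [adjoin.powerBasis_gen, minpoly_gen, adjoin.powerBasis_dim, h1] at h4
  rw [Algebra.norm_eq_norm_adjoin F θ, h3, pow_one, h4, h2]

/-- the same along an algebra homomorphism. -/
theorem norm_along_eq {K F F' : Type*} [Field K] [Field F] [Field F'] [Algebra K F] [Algebra K F']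
    (φ : F →ₐ[K] F') {θ : F'}
    (hθ : letI := algebraAlong φ
      IntermediateField.adjoin F {θ} = ⊤) {P : F[X]} (hP : P.Monic)
    (hdeg : P.natDegree = finrankAlong K φ)
    (hroot : letI := algebraAlong φ
      aeval θ P = 0) :
    (letI := algebraAlong φ
     Algebra.norm F θ) = (-1) ^ finrankAlong K φ * P.coeff 0 := by
  letI := algebraAlong φ
  exact norm_eq_of_adjoin_eq_top hθ hP hdeg hroot

variable {N ℓ : ℕ} [NeZero N] [NeZero ℓ]

/-- **NM-G**, with the conclusion of `exists_poly_beta` as a hypothesis. -/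
theorem coe_normAlpha_beta_of_adjoin_eq_top (hℓ : ℓ.Prime) (hℓN : ¬ ℓ ∣ N) {ζ : Kbˣ}
    (g : FN N)
    (hpoly : ∃ P : (FN N)[X], P.Monic ∧ P.natDegree = ℓ + 1 ∧
      (letI := algebraAlong (heckeAlphaBar Kb N ℓ)
       aeval (heckeBetaBar Kb N ℓ g) P = 0) ∧
      ((P.coeff 0 : FN N) : LaurentSeries Kb) = (-1) ^ (ℓ + 1) * Mop ζ ℓ (g : LaurentSeries Kb))
    (hg : letI := algebraAlong (heckeAlphaBar Kb N ℓ)
      IntermediateField.adjoin (FN N) {heckeBetaBar Kb N ℓ g} = ⊤) :
    ((normAlpha N ℓ (heckeBetaBar Kb N ℓ g) : FN N) : LaurentSeries Kb) =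
      Mop ζ ℓ (g : LaurentSeries Kb) := by
  obtain ⟨P, hP, hdeg, hroot, hc⟩ := hpoly
  have hfr : finrankAlong Kb (heckeAlphaBar Kb N ℓ) = ℓ + 1 := D1.finrankAlong_alpha hℓ hℓN
  have h1 : normAlpha N ℓ (heckeBetaBar Kb N ℓ g) = (-1) ^ (ℓ + 1) * P.coeff 0 := by
    have := norm_along_eq (heckeAlphaBar Kb N ℓ) hg hP (hdeg.trans hfr.symm) hroot
    rw [hfr] at this
    exact this
  rw [h1]
  push_cast
  rw [hc, ← mul_assoc, ← pow_add, ← two_mul, pow_mul]
  simp

end Fermat.Agent.S37.NMG
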