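import Fermat.Agent.S37.HeckeInputs
import Fermat.Agent.S37.MopMem

/-!
# S37, piece NMP (helper23): the polynomial `P_g`
-/

set_option autoImplicit false
set_option linter.style.haveILetI false

namespace Fermat.Agent.S37.NMPx

open AlgebraicCurve ModularCurve IntermediateField Fermat.Agent.S24 Fermat.Agent.S18
  Fermat.Agent.GR Fermat.Agent.S28

/-- descent of a polynomial by interpolation. -/
theorem exists_map_eq {F E : Type*} [Field F] [Field E] (φ : F →+* E) (Q : Polynomial E) (n : ℕ)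
    (hQ : Q.natDegree ≤ n) (x : ℕ → F) (hx : Set.InjOn x (Finset.range (n + 1)))
    (y : ℕ → F) (hy : ∀ i ∈ Finset.range (n + 1), Q.eval (φ (x i)) = φ (y i)) :
    ∃ P : Polynomial F, P.map φ = Q := by
  classical
  refine ⟨Lagrange.interpolate (Finset.range (n + 1)) x y, ?_⟩
  have hinj : Set.InjOn (fun i => φ (x i)) (Finset.range (n + 1)) := by
    intro i hi j hj h
    exact hx hi hj (φ.injective h)
  refine Polynomial.eq_of_degrees_lt_of_eval_index_eq (Finset.range (n + 1)) hinj ?_ ?_ ?_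
  · rw [Polynomial.degree_map]
    exact Lagrange.degree_interpolate_lt y hx
  · rw [Finset.card_range]
    refine lt_of_le_of_lt Polynomial.degree_le_natDegree ?_
    exact_mod_cast Nat.lt_succ_of_le hQ
  · intro i hi
    rw [Polynomial.eval_map, Polynomial.eval₂_hom, Lagrange.eval_interpolate_at_node y hx hi, hy i hi]

theorem aeval_along_eq_zero {K F F' E : Type*} [Field K] [Field F] [Field F'] [Field E]
    [Algebra K F] [Algebra K F'] (α : F →ₐ[K] F') (ψ : F' →+* E) (P : Polynomial F) (θ : F')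
    (h : (P.map (ψ.comp α.toRingHom)).eval (ψ θ) = 0) :
    letI := algebraAlong α
    Polynomial.aeval θ P = 0 := by
  letI := algebraAlong α
  apply ψ.injective
  rw [map_zero, Polynomial.aeval_def, Polynomial.hom_eval₂, ← Polynomial.eval_map]
  exact h

variable {N ℓ : ℕ} [NeZero N] [NeZero ℓ]

/-- `x(q) ↦ x(t^ℓ)` on `F_N`. -/
noncomputable def phi (N ℓ : ℕ) [NeZero ℓ] : FN N →+* LaurentSeries Kb :=
  (qExpand Kb ℓ).comp (FN N).val.toRingHom

theorem phi_apply (x : FN N) : phi N ℓ x = qExpand Kb ℓ (x : LaurentSeries Kb) := rfl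

/-- the polynomial `Q` over `ℚ̄((t))`. -/
noncomputable def QQ (ζ : Kbˣ) (ℓ : ℕ) [NeZero ℓ] (g : LaurentSeries Kb) :
    Polynomial (LaurentSeries Kb) :=
  (Polynomial.X - Polynomial.C (qExpand Kb ℓ (qExpand Kb ℓ g))) *
    ∏ i ∈ Finset.range ℓ, (Polynomial.X - Polynomial.C (scale (ζ ^ i) g))

theorem QQ_monic (ζ : Kbˣ) (g : LaurentSeries Kb) : (QQ ζ ℓ g).Monic :=
  (Polynomial.monic_X_sub_C _).mul (Polynomial.monic_prod_of_monic _ _
    fun _ _ => Polynomial.monic_X_sub_C _)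

theorem QQ_natDegree (ζ : Kbˣ) (g : LaurentSeries Kb) : (QQ ζ ℓ g).natDegree = ℓ + 1 := by
  rw [QQ, Polynomial.Monic.natDegree_mul (Polynomial.monic_X_sub_C _)
    (Polynomial.monic_prod_of_monic _ _ fun _ _ => Polynomial.monic_X_sub_C _),
    Polynomial.natDegree_X_sub_C, Polynomial.natDegree_prod_of_monic _ _
      (fun _ _ => Polynomial.monic_X_sub_C _)]
  simp [add_comm]

theorem QQ_eval_C {ζ : Kbˣ} (hζ : IsPrimitiveRoot ζ ℓ) (g : LaurentSeries Kb) (c : Kb) :
    (QQ ζ ℓ g).eval (HahnSeries.C c) = qExpand Kb ℓ (Mop ζ ℓ (HahnSeries.C c - g)) := by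
  rw [Mop, map_mul, qExpand_Uop_Pop hζ, QQ, Polynomial.eval_mul, Polynomial.eval_prod, Pop]
  simp only [Polynomial.eval_sub, Polynomial.eval_X, Polynomial.eval_C, map_sub, qExpand_C, scale_C]

theorem QQ_eval_root (ζ : Kbˣ) (g : LaurentSeries Kb) :
    (QQ ζ ℓ g).eval (qExpand Kb ℓ (qExpand Kb ℓ g)) = 0 := by
  rw [QQ, Polynomial.eval_mul]
  simp

theorem exists_poly_beta (hℓ : ℓ.Prime) (hℓN : ¬ ℓ ∣ N) {ζ : Kbˣ} (hζ : IsPrimitiveRoot ζ ℓ)
    (g : FN N) :
    ∃ P : Polynomial (FN N), P.Monic ∧ P.natDegree = ℓ + 1 ∧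
      (letI := algebraAlong (heckeAlphaBar Kb N ℓ)
       Polynomial.aeval (heckeBetaBar Kb N ℓ g) P = 0) ∧
      ((P.coeff 0 : FN N) : LaurentSeries Kb) =
        (-1) ^ (ℓ + 1) * Mop ζ ℓ (g : LaurentSeries Kb) := by
  have hCmem : ∀ c : Kb, HahnSeries.C c ∈ FN N := fun c => by
    have := (FN N).algebraMap_mem c
    rwa [S28.algebraMap_eq_C] at this
  -- the values
  let M : Kb → FN N := fun c =>
    ⟨Mop ζ ℓ (HahnSeries.C c - (g : LaurentSeries Kb)),
      Mop_mem_FN hℓ hℓN hζ (sub_mem (hCmem c) g.2)⟩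
  let x : ℕ → FN N := fun i => ⟨HahnSeries.C (i : Kb), hCmem _⟩
  have hx : Set.InjOn x (Finset.range (ℓ + 1 + 1)) := by
    intro i _ j _ h
    have h1 : HahnSeries.C (i : Kb) = (HahnSeries.C (j : Kb) : LaurentSeries Kb) :=
      congrArg Subtype.val h
    have h2 := HahnSeries.C_injective h1
    exact_mod_cast h2
  have hphix : ∀ i, phi N ℓ (x i) = HahnSeries.C (i : Kb) := fun i => by
    rw [phi_apply]; exact qExpand_C (R := Kb) (N := ℓ) _
  obtain ⟨P, hP⟩ := exists_map_eq (phi N ℓ) (QQ ζ ℓ (g : LaurentSeries Kb)) (ℓ + 1)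
    (QQ_natDegree ζ _).le x hx (fun i => M (i : Kb)) (fun i _ => by
      rw [hphix, QQ_eval_C hζ]; rfl)
  have hinj : Function.Injective (phi N ℓ) := (phi N ℓ).injective
  refine ⟨P, ?_, ?_, ?_, ?_⟩
  · apply Polynomial.monic_of_injective hinj
    rw [hP]; exact QQ_monic ζ _
  · rw [← Polynomial.natDegree_map_eq_of_injective hinj, hP, QQ_natDegree]
  · apply aeval_along_eq_zero (heckeAlphaBar Kb N ℓ) (phi (N * ℓ) ℓ)
    have hcomp : (phi (N * ℓ) ℓ).comp (heckeAlphaBar Kb N ℓ).toRingHom = phi N ℓ :=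
      RingHom.ext fun a => by
        rw [RingHom.comp_apply, phi_apply, phi_apply]
        exact congrArg _ (coe_heckeAlphaBar N ℓ a)
    rw [hcomp, hP, phi_apply, coe_heckeBetaBar]
    exact QQ_eval_root ζ _
  · have h0 : phi N ℓ (P.coeff 0) = phi N ℓ (M 0) := by
      rw [← Polynomial.coeff_map, hP, Polynomial.coeff_zero_eq_eval_zero]
      calc (QQ ζ ℓ (g : LaurentSeries Kb)).eval 0
          = (QQ ζ ℓ (g : LaurentSeries Kb)).eval (HahnSeries.C (0 : Kb)) := by rw [map_zero]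
        _ = qExpand Kb ℓ (Mop ζ ℓ (HahnSeries.C (0 : Kb) - (g : LaurentSeries Kb))) :=
          QQ_eval_C hζ _ 0
        _ = phi N ℓ (M 0) := rfl
    rw [hinj h0]
    show Mop ζ ℓ (HahnSeries.C 0 - (g : LaurentSeries Kb)) = _
    have e : HahnSeries.C (0 : Kb) - (g : LaurentSeries Kb) =
        HahnSeries.C (-1 : Kb) * (g : LaurentSeries Kb) := by
      rw [map_zero, map_neg, map_one]; ring
    rw [e, Mop_mul hζ, Mop_C, map_pow, map_neg, map_one]

end Fermat.Agent.S37.NMPx
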