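import Fermat.Agent.S37.HeckeInputs
import Fermat.Agent.S37.MopMem
import Fermat.Agent.S37.D1
import Fermat.Agent.S37.D2
import Fermat.Agent.S37.NMF
import Fermat.Agent.S37.NMG
import Fermat.Agent.S37.NMPx

/-!
# S37, piece NM: `N_α (β g) = Mop g`
-/

set_option autoImplicit false

namespace Fermat.Agent.S37

open AlgebraicCurve ModularCurve IntermediateField Polynomial Fermat.Agent.S24 Fermat.Agent.S18
  Fermat.Agent.GR

variable {N ℓ : ℕ} [NeZero N] [NeZero ℓ]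

/-- **D1.**  `[F_{Nℓ} : α F_N] = ψ(Nℓ)/ψ(N) = ℓ + 1`
(`finrank_adjoin_algebraMap` with `y = jBar N`, `α (jBar N) = jBar (Nℓ)`, `S24.finrank_modularFunctionFieldBar`,
`S20.dedekindPsi_mul`, `S20.dedekindPsi_prime_pow`). -/
theorem finrankAlong_alpha (hℓ : ℓ.Prime) (hℓN : ¬ ℓ ∣ N) :
    finrankAlong Kb (heckeAlphaBar Kb N ℓ) = ℓ + 1 :=
  D1.finrankAlong_alpha hℓ hℓN

/-- **D2.**  `F_{Nℓ} = F_N (j(q^{Nℓ}))`: a subfield of `ℚ̄((q))` containing `F_N` and `j(q^{Nℓ})` contains `F_{Nℓ}`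
(`S28.full_step` with `ψ = E.val`, `M = N`, `p = ℓ`; `S24.towerDegree_fieldHyp` gives `HasModPoly`;
`S24.modularFunctionFieldBar_eq`, `S28.jce_one_mem_full`). -/
theorem FN_mul_le_of (hℓ : ℓ.Prime) (E : IntermediateField Kb (LaurentSeries Kb)) (h1 : FN N ≤ E)
    (h2 : qExpand Kb (N * ℓ) (jqModC Kb) ∈ E) : FN (N * ℓ) ≤ E :=
  D2.FN_mul_le_of hℓ E h1 h2

/-- **D2'.**  A generator of the form `β g₀`, `g₀ = j(q^N)`. -/
theorem exists_adjoin_beta_eq_top (hℓ : ℓ.Prime) :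
    ∃ g₀ : FN N,
      letI := algebraAlong (heckeAlphaBar Kb N ℓ)
      IntermediateField.adjoin (FN N) {heckeBetaBar Kb N ℓ g₀} = ⊤ :=
  D2.exists_adjoin_beta_eq_top hℓ

/-- **NM-P.**  The polynomial `P_g = (X - g(q^ℓ)) ∏_{b<ℓ} (X - g(ζ^b q^{1/ℓ}))` has coefficients in `F_N`.

Proof.  `P := Lagrange.interpolate` over the field `FN N` at the nodes `c = 0, 1, …, ℓ+1` (as constants) with the values
`⟨Mop ζ ℓ (C c - g), Mop_mem_FN …⟩`.  Let `ι := qExpand Kb ℓ : ℚ̄((q)) → ℚ̄((t))`, `q = t^ℓ`.  By `GR.qExpand_Uop_Pop`,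
`ι (Mop ζ ℓ Y) = qExpand (ℓ*ℓ) Y * ∏_{i<ℓ} scale (ζ^i) Y`; for `Y = C c - g` this is the value at `X = C c` of
`Q := (X - qExpand (ℓ*ℓ) g) ∏_{i<ℓ} (X - scale (ζ^i) g) ∈ ℚ̄((t))[X]`, monic of degree `ℓ+1`.  `P.map (ι ∘ coe)` and `Q` have degree `≤ ℓ+1`
and agree at `ℓ+2` points, so they are equal (`Polynomial.eq_of_degree_le_of_eval_finset_eq` or `Lagrange.eq_interpolate`).
Hence `P` is monic of degree `ℓ+1`, `P (β g) = 0` (`ι (β g) = qExpand (ℓ*ℓ) g` is a root of `Q`; `ι` injective), and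
`P(0) = Mop ζ ℓ (-g) = (-1)^{ℓ+1} Mop ζ ℓ g` (`Mop_mul`, `Mop_C`). -/
theorem exists_poly_beta (hℓ : ℓ.Prime) (hℓN : ¬ ℓ ∣ N) {ζ : Kbˣ} (hζ : IsPrimitiveRoot ζ ℓ)
    (g : FN N) :
    ∃ P : (FN N)[X], P.Monic ∧ P.natDegree = ℓ + 1 ∧
      (letI := algebraAlong (heckeAlphaBar Kb N ℓ)
       aeval (heckeBetaBar Kb N ℓ g) P = 0) ∧
      ((P.coeff 0 : FN N) : LaurentSeries Kb) = (-1) ^ (ℓ + 1) * Mop ζ ℓ (g : LaurentSeries Kb) :=
  NMPx.exists_poly_beta hℓ hℓN hζ g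

/-- **NM-G.**  The formula for generators: `P_g` is the minimal polynomial (monic, degree `ℓ+1 = [F':F] = deg minpoly`, `minpoly ∣ P_g`) and
`N θ = (-1)^n (minpoly θ).coeff 0` for a generator `θ` (`Algebra.PowerBasis.norm_gen_eq_coeff_zero_minpoly`,
`IntermediateField.adjoin.powerBasis`, or `Algebra.norm_eq_norm_adjoin`). -/
theorem coe_normAlpha_beta_of_adjoin_eq_top (hℓ : ℓ.Prime) (hℓN : ¬ ℓ ∣ N) {ζ : Kbˣ}
    (hζ : IsPrimitiveRoot ζ ℓ) (g : FN N)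
    (hg : letI := algebraAlong (heckeAlphaBar Kb N ℓ)
      IntermediateField.adjoin (FN N) {heckeBetaBar Kb N ℓ g} = ⊤) :
    ((normAlpha N ℓ (heckeBetaBar Kb N ℓ g) : FN N) : LaurentSeries Kb) =
      Mop ζ ℓ (g : LaurentSeries Kb) :=
  NMG.coe_normAlpha_beta_of_adjoin_eq_top hℓ hℓN g (exists_poly_beta hℓ hℓN hζ g) hg

/-- **NM-F1.**  For `a, b ∈ F'` with `F(a, b) = F'`, `F(a + c b) = F'` for some constant `c ∈ K` (infinite field of constants; there are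
only finitely many intermediate fields (`Field.finite_intermediateField_of_exists_primitive_element` / the instance for finite separable
extensions); if `F(a + c b) = F(a + c' b) =: E` with `c ≠ c'` then `b, a ∈ E`). General statement. -/
theorem exists_adjoin_add_smul_eq_top {K F F' : Type*} [Field K] [Field F] [Field F'] [Algebra K F]
    [Algebra K F'] [Algebra F F'] [IsScalarTower K F F'] [Infinite K] [FiniteDimensional F F']
    [Algebra.IsSeparable F F'] (a b : F') (h : IntermediateField.adjoin F {a, b} = ⊤) :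
    ∃ c : K, IntermediateField.adjoin F {a + algebraMap K F' c * b} = ⊤ :=
  NMF.exists_adjoin_add_smul_eq_top a b h

/-- **NM.**  `g = 0` is trivial.  For `g ≠ 0`: `g₀` from D2'; `c` from NM-F1 with `a = β (g g₀)`, `b = β g` (`F(a,b) ∋ a/b = β g₀`):
`g₁ := g (g₀ + c)` and `g₂ := g₀ + c` are generators, `g = g₁ / g₂`; both sides are multiplicative (`map_mul`, `GR.Mop_mul`). -/
theorem coe_normAlpha_beta (hℓ : ℓ.Prime) (hℓN : ¬ ℓ ∣ N) {ζ : Kbˣ} (hζ : IsPrimitiveRoot ζ ℓ)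
    (g : FN N) :
    ((normAlpha N ℓ (heckeBetaBar Kb N ℓ g) : FN N) : LaurentSeries Kb) =
      Mop ζ ℓ (g : LaurentSeries Kb) :=
  NMF.coe_normAlpha_beta hζ (exists_adjoin_beta_eq_top hℓ)
    (fun g hg => coe_normAlpha_beta_of_adjoin_eq_top hℓ hℓN hζ g hg) g

end Fermat.Agent.S37
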