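import Fermat.Agent.S18.ModCoordHC
import Fermat.Agent.S18.Riemann

/-!
# S37, piece BD: the bounded degree trick (abstract; `RedSetting` of S18, `Place` API of S24)

`RC S u`      : `u` is residually constant (`c u ≡ 1` for a constant `c`).
`nrm D`       : `∑ |D v|`.
`BddTriv S Z` : every multiple `n Z` is the divisor of a residually constant function up to an error of bounded norm.

Main result `RC_of_bddTriv`: if `div u = m Z` with `Z` boundedly trivial, then `u` is residually constant.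
-/

set_option autoImplicit false

namespace Fermat.Agent.S37

open AlgebraicCurve IntermediateField Fermat.Agent.S24 Fermat.Agent.S18

variable {K F k Fb : Type*} [Field K] [Field F] [Algebra K F] [Field k] [Field Fb] [Algebra k Fb]

/-- `u` is residually constant: `c u` reduces to `1` for some constant `c ≠ 0`. -/
def RC (S : RedSetting K F k Fb) (u : F) : Prop :=
  ∃ c : K, c ≠ 0 ∧ S.rd (algebraMap K F c * u) = 1

/-- the `ℓ¹`-norm of a divisor. -/
noncomputable def nrm (D : Divisor K F) : ℕ := D.sum fun _ n => n.natAbs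

/-- `n Z = div h_n + E_n`, `h_n` residually constant, `‖E_n‖ ≤ C`, for all `n`. -/
def BddTriv (S : RedSetting K F k Fb) (Z : Divisor K F) : Prop :=
  ∃ C : ℕ, ∀ n : ℕ, ∃ (h : F) (E : Divisor K F), RC S h ∧ nrm E ≤ C ∧
    ∀ v : Place K F, (n : ℤ) * Z v = v.ord h + E v

section RC

variable {S : RedSetting K F k Fb}

theorem RC.ne_zero {u : F} (h : RC S u) : u ≠ 0 := by
  rintro rfl
  obtain ⟨c, _, hc⟩ := h
  rw [mul_zero, S.rd_zero] at hc
  exact zero_ne_one hc

theorem RC.one : RC S 1 := ⟨1, one_ne_zero, by rw [map_one, mul_one, S.rd_one]⟩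

theorem RC.mul {u v : F} (hu : RC S u) (hv : RC S v) : RC S (u * v) := by
  obtain ⟨c, hc, h1⟩ := hu
  obtain ⟨d, hd, h2⟩ := hv
  refine ⟨c * d, mul_ne_zero hc hd, ?_⟩
  have e : algebraMap K F (c * d) * (u * v) = (algebraMap K F c * u) * (algebraMap K F d * v) := by
    rw [map_mul]; ring
  rw [e, S.rd_mul (S.mem_of_rd_ne_zero (by rw [h1]; exact one_ne_zero))
    (S.mem_of_rd_ne_zero (by rw [h2]; exact one_ne_zero)), h1, h2, mul_one]

theorem RC.inv {u : F} (hu : RC S u) : RC S u⁻¹ := by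
  obtain ⟨c, hc, h1⟩ := hu
  refine ⟨c⁻¹, inv_ne_zero hc, ?_⟩
  rw [map_inv₀, ← mul_inv, S.rd_inv (by rw [h1]; exact one_ne_zero), h1, inv_one]

theorem RC.pow {u : F} (hu : RC S u) (n : ℕ) : RC S (u ^ n) := by
  induction n with
  | zero => rw [pow_zero]; exact RC.one
  | succ n ih => rw [pow_succ]; exact ih.mul hu

theorem RC.const_mul {u : F} (hu : RC S u) {c : K} (hc : c ≠ 0) : RC S (algebraMap K F c * u) := by
  obtain ⟨d, hd, h1⟩ := hu
  refine ⟨d * c⁻¹, mul_ne_zero hd (inv_ne_zero hc), ?_⟩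
  have e : algebraMap K F (d * c⁻¹) * (algebraMap K F c * u) = algebraMap K F d * u := by
    rw [← mul_assoc, ← map_mul, mul_assoc, inv_mul_cancel₀ hc, mul_one]
  rw [e, h1]

end RC

section nrm

theorem nrm_eq_sum {D : Divisor K F} {s : Finset (Place K F)} (hs : D.support ⊆ s) :
    nrm D = ∑ v ∈ s, (D v).natAbs :=
  Finsupp.sum_of_support_subset D hs _ (fun _ _ => rfl)

theorem nrm_zero : nrm (0 : Divisor K F) = 0 := Finsupp.sum_zero_index

theorem nrm_single (v : Place K F) (n : ℤ) : nrm (Finsupp.single v n) = n.natAbs :=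
  Finsupp.sum_single_index rfl

theorem nrm_add_le (D E : Divisor K F) : nrm (D + E) ≤ nrm D + nrm E := by
  classical
  rw [nrm_eq_sum (D := D + E) (s := D.support ∪ E.support) Finsupp.support_add,
    nrm_eq_sum (D := D) (s := D.support ∪ E.support) Finset.subset_union_left,
    nrm_eq_sum (D := E) (s := D.support ∪ E.support) Finset.subset_union_right,
    ← Finset.sum_add_distrib]
  exact Finset.sum_le_sum fun v _ => by
    rw [Finsupp.add_apply]; exact Int.natAbs_add_le _ _

theorem nrm_zsmul (n : ℤ) (D : Divisor K F) : nrm (n • D) = n.natAbs * nrm D := by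
  rw [nrm_eq_sum (D := n • D) (s := D.support) Finsupp.support_smul,
    nrm_eq_sum (D := D) (s := D.support) subset_rfl, Finset.mul_sum]
  exact Finset.sum_congr rfl fun v _ => by
    rw [Finsupp.smul_apply, smul_eq_mul, Int.natAbs_mul]

theorem nrm_neg (D : Divisor K F) : nrm (-D) = nrm D := by
  have := nrm_zsmul (-1) D
  simpa using this

theorem nrm_sub_le (D E : Divisor K F) : nrm (D - E) ≤ nrm D + nrm E := by
  rw [sub_eq_add_neg, ← nrm_neg E]
  exact nrm_add_le _ _

theorem nrm_nsmul (n : ℕ) (D : Divisor K F) : nrm (n • D) = n * nrm D := by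
  have := nrm_zsmul (n : ℤ) D
  simpa using this

theorem nrm_sum_le {ι : Type*} (s : Finset ι) (D : ι → Divisor K F) :
    nrm (∑ i ∈ s, D i) ≤ ∑ i ∈ s, nrm (D i) := by
  classical
  induction s using Finset.induction_on with
  | empty => simp [nrm_zero]
  | insert a s ha ih =>
    rw [Finset.sum_insert ha, Finset.sum_insert ha]
    exact (nrm_add_le _ _).trans (Nat.add_le_add_left ih _)

/-- an additive map which is bounded on the places is bounded. -/
theorem nrm_map_le (Λ : Divisor K F →+ Divisor K F) (c : ℕ)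
    (h : ∀ v : Place K F, nrm (Λ (Finsupp.single v 1)) ≤ c) (D : Divisor K F) :
    nrm (Λ D) ≤ c * nrm D := by
  have h1 : D = ∑ v ∈ D.support, (D v) • Finsupp.single v (1 : ℤ) := by
    conv_lhs => rw [← Finsupp.sum_single D]
    rw [Finsupp.sum]
    exact Finset.sum_congr rfl fun v _ => by
      rw [Finsupp.smul_single, smul_eq_mul, mul_one]
  have h2 : Λ D = ∑ v ∈ D.support, (D v) • Λ (Finsupp.single v (1 : ℤ)) := by
    conv_lhs => rw [h1]
    rw [map_sum]
    exact Finset.sum_congr rfl fun v _ => map_zsmul _ _ _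
  rw [h2, nrm_eq_sum (D := D) (s := D.support) subset_rfl, Finset.mul_sum]
  refine (nrm_sum_le _ _).trans (Finset.sum_le_sum fun v _ => ?_)
  rw [nrm_zsmul, mul_comm]
  exact Nat.mul_le_mul_right _ (h v)

/-- for an effective divisor the norm is the degree (all places have degree one). -/
theorem nrm_eq_degree [IsAlgClosed K] (hFF : IsFF K F) {D : Divisor K F} (hD : ∀ v, 0 ≤ D v) :
    (nrm D : ℤ) = Divisor.degree D := by
  have hdeg : Divisor.degree D = ∑ v ∈ D.support, D v := by
    simp only [Divisor.degree, Finsupp.liftAddHom_apply, Finsupp.sum, AddMonoidHom.coe_mulRight]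
    refine Finset.sum_congr rfl fun v _ => ?_
    rw [hFF.deg_eq_one v]
    simp
  rw [hdeg, nrm_eq_sum (D := D) (s := D.support) subset_rfl, Nat.cast_sum]
  exact Finset.sum_congr rfl fun v _ => Int.natAbs_of_nonneg (hD v)

/-- the polar part is bounded by the norm. -/
theorem finsum_poles_le_nrm {D : Divisor K F} {f : F} (hD : ∀ v, D v = v.ord f) :
    ∑ᶠ v : Place K F, max (-(v.ord f)) 0 ≤ (nrm D : ℤ) := by
  rw [finsum_eq_sum_of_support_subset (s := D.support), nrm_eq_sum (D := D) (s := D.support) subset_rfl,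
    Nat.cast_sum]
  · refine Finset.sum_le_sum fun v _ => ?_
    rw [hD v]
    omega
  · intro v hv
    rw [Function.mem_support] at hv
    rw [Finset.mem_coe, Finsupp.mem_support_iff, hD v]
    intro h0
    apply hv
    rw [h0]; simp

end nrm

section BddTriv

variable {S : RedSetting K F k Fb}

theorem BddTriv.zero : BddTriv S 0 :=
  ⟨0, fun n => ⟨1, 0, RC.one, by rw [nrm_zero], fun v => by simp⟩⟩

theorem BddTriv.add {Z Z' : Divisor K F} (h : BddTriv S Z) (h' : BddTriv S Z') :
    BddTriv S (Z + Z') := by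
  obtain ⟨C, hC⟩ := h
  obtain ⟨C', hC'⟩ := h'
  refine ⟨C + C', fun n => ?_⟩
  obtain ⟨f, E, hf, hE, h1⟩ := hC n
  obtain ⟨f', E', hf', hE', h2⟩ := hC' n
  refine ⟨f * f', E + E', hf.mul hf', (nrm_add_le _ _).trans (Nat.add_le_add hE hE'), fun v => ?_⟩
  rw [Finsupp.add_apply, Finsupp.add_apply, v.ord_mul hf.ne_zero hf'.ne_zero, mul_add, h1 v, h2 v]
  ring

theorem BddTriv.neg {Z : Divisor K F} (h : BddTriv S Z) : BddTriv S (-Z) := by
  obtain ⟨C, hC⟩ := h
  refine ⟨C, fun n => ?_⟩
  obtain ⟨f, E, hf, hE, h1⟩ := hC n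
  refine ⟨f⁻¹, -E, hf.inv, by rwa [nrm_neg], fun v => ?_⟩
  rw [Finsupp.neg_apply, Finsupp.neg_apply, v.ord_inv, mul_neg, h1 v]
  ring

/-- **BD-2.** `Λ` additive, bounded, mapping principal divisors to divisors of residually constant functions.
Then `Λ D` is boundedly trivial for every `D` of degree `0`.

Proof. `E₀` = Riemann bound.  For `n` choose `f ≠ 0` with `E' := div f + n D + E₀ ≥ 0`; `deg E' = deg E₀`
(`IsFF.degree_eq_zero_of_principal`), so `‖E' - E₀‖ ≤ 2 deg E₀ = 2 ‖E₀‖` (`nrm_eq_degree`).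
`n Λ D = Λ (E' - E₀) + Λ (div f⁻¹) = Λ (E' - E₀) + div h`.  `C = c * (2 * nrm E₀)`. -/
theorem BddTriv.of_map [IsAlgClosed K] [CharZero K] (hFF : IsFF K F) {E₀ : Divisor K F}
    (hE₀ : ∀ v, 0 ≤ E₀ v)
    (hR : ∀ D : Divisor K F, Divisor.degree D = 0 →
      ∃ f : F, f ≠ 0 ∧ ∀ v : Place K F, 0 ≤ v.ord f + D v + E₀ v)
    (Λ : Divisor K F →+ Divisor K F) (c : ℕ)
    (hc : ∀ v : Place K F, nrm (Λ (Finsupp.single v 1)) ≤ c)
    (hfun : ∀ (f : F) (G : Divisor K F), f ≠ 0 → (∀ v, G v = v.ord f) →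
      ∃ h : F, RC S h ∧ ∀ v, Λ G v = v.ord h)
    (D : Divisor K F) (hD : Divisor.degree D = 0) : BddTriv S (Λ D) := by
  classical
  refine ⟨c * (2 * nrm E₀), fun n => ?_⟩
  have hnD : Divisor.degree (n • D) = 0 := by rw [map_nsmul, hD, smul_zero]
  obtain ⟨f, hf, hpos⟩ := hR (n • D) hnD
  -- the divisor of `f`
  let G : Divisor K F := Finsupp.onFinset (hFF.finite_ord_ne_zero hf).toFinset (fun v => v.ord f)
    (by intro v hv; rw [Set.Finite.mem_toFinset]; exact hv)
  have hG : ∀ v, G v = v.ord f := fun v => rfl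
  have hG0 : Divisor.degree G = 0 := hFF.degree_eq_zero_of_principal hf G hG
  set E' : Divisor K F := G + n • D + E₀ with hE'
  have hE'pos : ∀ v, 0 ≤ E' v := by
    intro v
    rw [hE', Finsupp.add_apply, Finsupp.add_apply, hG v]
    exact hpos v
  have hdegE' : Divisor.degree E' = Divisor.degree E₀ := by
    rw [hE', map_add, map_add, hG0, hnD, zero_add, zero_add]
  have hnrm : nrm E' = nrm E₀ := by
    have h1 := nrm_eq_degree hFF hE'pos
    have h2 := nrm_eq_degree hFF hE₀
    rw [hdegE', ← h2] at h1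
    exact_mod_cast h1
  have hGi : ∀ v, (-G) v = v.ord f⁻¹ := fun v => by rw [Finsupp.neg_apply, hG v, v.ord_inv]
  obtain ⟨h, hh, hΛ⟩ := hfun f⁻¹ (-G) (inv_ne_zero hf) hGi
  refine ⟨h, Λ (E' - E₀), hh, ?_, fun v => ?_⟩
  · refine (nrm_map_le Λ c hc _).trans (Nat.mul_le_mul_left _ ?_)
    refine (nrm_sub_le _ _).trans ?_
    rw [hnrm]; omega
  · have e : n • D = -G + (E' - E₀) := by rw [hE']; abel
    have e2 : n • Λ D = Λ (-G) + Λ (E' - E₀) := by rw [← map_nsmul, e, map_add]
    have e3 := DFunLike.congr_fun e2 v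
    rw [Finsupp.add_apply, Finsupp.smul_apply, hΛ v, nsmul_eq_mul] at e3
    exact e3

end BddTriv

/-- `1, t, …, t^{n-1}` are independent over `k(t^n)`: `n ≤ [E : k(t^n)]` (`E/k(t)` finite). -/
theorem le_finrank_adjoin_pow {k E : Type*} [Field k] [Field E] [Algebra k E] (hE : IsFF k E) {t : E}
    (ht : Transcendental k t) {n : ℕ} (hn : 0 < n) : n ≤ Module.finrank k⟮t ^ n⟯ E := by
  have htn : Transcendental k (t ^ n) := ht.pow hn
  have := hE.finiteDimensional htn
  have hind : PolyIndep k (t ^ n) (fun i : Fin n => t ^ (i : ℕ)) := by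
    intro p hp
    have h1 : Polynomial.aeval t (∑ i : Fin n, Polynomial.expand k n (p i) * Polynomial.X ^ (i : ℕ)) = 0 := by
      rw [map_sum, ← hp]
      refine Finset.sum_congr rfl fun i _ => ?_
      rw [map_mul, Polynomial.expand_aeval, map_pow, Polynomial.aeval_X]
    have h2 := (transcendental_iff.mp ht) _ h1
    funext i₀
    ext j
    have h3 := congrArg (fun q => Polynomial.coeff q (n * j + i₀)) h2
    simp only [Polynomial.finsetSum_coeff, Polynomial.coeff_zero] at h3
    rw [Finset.sum_eq_single i₀] at h3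
    · rw [Polynomial.coeff_mul_X_pow, Polynomial.coeff_expand hn, if_pos (Dvd.intro _ rfl),
        Nat.mul_div_cancel_left _ hn] at h3
      simpa using h3
    · intro i _ hi
      rw [Polynomial.coeff_mul_X_pow']
      split_ifs with hle
      · rw [Polynomial.coeff_expand hn, if_neg]
        intro hdvd
        apply hi
        have hi1 := i.2
        have hi2 := i₀.2
        obtain ⟨q, hq⟩ := hdvd
        apply Fin.ext
        -- n * j + i₀ - i = n * q
        have h5 : n * j + i₀ = n * q + i := by omega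
        have h6 : (n * j + i₀) % n = (n * q + i) % n := by rw [h5]
        rw [Nat.mul_add_mod, Nat.mul_add_mod, Nat.mod_eq_of_lt hi2, Nat.mod_eq_of_lt hi1] at h6
        exact h6.symm
      · rfl
    · intro h; exact absurd (Finset.mem_univ _) h
  have h4 := linearIndependent_of_polyIndep htn _ hind
  have h5 := h4.fintype_card_le_finrank
  simpa using h5

/-- **BD-3 (main).**  `div u = m Z`, `Z` boundedly trivial `⟹` `u` residually constant.

Proof. Scale `u` (`S.exists_smul_rd_ne_zero`): `ū := rd (c₀ u) ≠ 0`.  If `ū` is algebraic over `k` it is a constant `a ≠ 0`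
(`k` algebraically closed); lift `a⁻¹` to `A` (`S.exists_rc_eq`, `S.rd_algebraMap`) and conclude.
Otherwise `ū` is transcendental.  Let `C` be the bound of `Z`, `n := m * C + 1`, `n Z = div h + E`, `rd (c h) = 1`.
`x := (c₀ u)^n * ((c h)^m)⁻¹ ∈ V`, `rd x = ū^n` transcendental, so `x` is transcendental over `K`
(`S.transcendental_of_rd`), `ord_v x = m E v`, `[F : K(x)] = ∑ max (-ord x) 0 ≤ m C` (`RI.finsum_poles`, `finsum_poles_le_nrm`),
`n ≤ [Fb : k(ū^n)] ≤ [F : K(x)]` (`le_finrank_adjoin_pow`, `RedSetting.finrank_rd_le`, `IsFF.finiteDimensional`). Contradiction. -/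
theorem RC_of_bddTriv [IsAlgClosed K] [CharZero K] [IsAlgClosed k] (S : RedSetting K F k Fb)
    (hFF : IsFF K F) (hFb : IsFF k Fb) {Z : Divisor K F} (hZ : BddTriv S Z) {u : F} (hu : u ≠ 0)
    {m : ℕ} (hdiv : ∀ v : Place K F, v.ord u = (m : ℤ) * Z v) : RC S u := by
  obtain ⟨c₀, hc₀, hV, hne⟩ := S.exists_smul_rd_ne_zero hu
  rw [Algebra.smul_def] at hV hne
  set U := algebraMap K F c₀ * u with hU
  have hC₀ : algebraMap K F c₀ ≠ 0 := (_root_.map_ne_zero _).2 hc₀
  have hU0 : U ≠ 0 := mul_ne_zero hC₀ hu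
  by_cases halg : IsAlgebraic k (S.rd U)
  · obtain ⟨a, ha⟩ := halg.isIntegral.mem_range_algebraMap_of_minpoly_splits (K := k)
      (IsAlgClosed.splits _)
    have ha0 : a ≠ 0 := by
      rintro rfl
      rw [map_zero] at ha
      exact hne ha.symm
    obtain ⟨b, hbA, hb⟩ := S.exists_rc_eq a⁻¹
    have hb0 : b ≠ 0 := by
      rintro rfl
      rw [S.rc_zero] at hb
      exact inv_ne_zero ha0 hb.symm
    refine ⟨b * c₀, mul_ne_zero hb0 hc₀, ?_⟩
    have e : algebraMap K F (b * c₀) * u = algebraMap K F b * U := by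
      rw [hU, map_mul, mul_assoc]
    rw [e, S.rd_mul (S.map_mem _ hbA) hV, S.rd_algebraMap hbA, hb, ← ha, ← map_mul,
      inv_mul_cancel₀ ha0, map_one]
  · exfalso
    have htr : Transcendental k (S.rd U) := halg
    obtain ⟨C, hC⟩ := hZ
    set n := m * C + 1 with hn
    have hn0 : 0 < n := by omega
    obtain ⟨h, E, ⟨c, hc, hrc⟩, hE, hdivn⟩ := hC n
    set H := algebraMap K F c * h with hH
    have hCc : algebraMap K F c ≠ 0 := (_root_.map_ne_zero _).2 hc
    have hh0 : h ≠ 0 := by
      rintro rfl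
      rw [hH, mul_zero, S.rd_zero] at hrc
      exact zero_ne_one hrc
    have hH0 : H ≠ 0 := mul_ne_zero hCc hh0
    have hHV : H ∈ S.V := S.mem_of_rd_ne_zero (by rw [hrc]; exact one_ne_zero)
    have hHm : S.rd (H ^ m) = 1 := by rw [S.rd_pow hHV, hrc, one_pow]
    have hHmi : (H ^ m)⁻¹ ∈ S.V := S.inv_mem_of_rd_ne_zero (by rw [hHm]; exact one_ne_zero)
    set x := U ^ n * (H ^ m)⁻¹ with hx
    have hxV : x ∈ S.V := mul_mem (pow_mem hV n) hHmi
    have hrdx : S.rd x = S.rd U ^ n := by
      rw [hx, S.rd_mul (pow_mem hV n) hHmi, S.rd_pow hV,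
        S.rd_inv (by rw [hHm]; exact one_ne_zero), hHm, inv_one, mul_one]
    have htrn : Transcendental k (S.rd x) := by rw [hrdx]; exact htr.pow hn0
    have hxt : Transcendental K x := S.transcendental_of_rd hxV htrn
    have hordpow : ∀ (v : Place K F) (f : F) (j : ℕ), v.ord (f ^ j) = (j : ℤ) * v.ord f := by
      intro v f j
      rw [← zpow_natCast, v.ord_zpow]
    have hord : ∀ v : Place K F, (m • E) v = v.ord x := by
      intro v
      rw [hx, v.ord_mul (pow_ne_zero _ hU0) (inv_ne_zero (pow_ne_zero _ hH0)), v.ord_inv, hordpow,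
        hordpow, hU, hH, v.ord_mul hC₀ hu, v.ord_mul hCc hh0, ord_algebraMap, ord_algebraMap,
        zero_add, zero_add, hdiv v, Finsupp.smul_apply, nsmul_eq_mul]
      have := hdivn v
      linear_combination (-(m : ℤ)) * this
    have h1 := RI.finsum_poles hFF hxt
    have h2 := finsum_poles_le_nrm hord
    rw [h1, nrm_nsmul] at h2
    have := hFF.finiteDimensional hxt
    have := hFb.finiteDimensional htrn
    have h3 := S.finrank_rd_le hxV htrn
    have h4 := le_finrank_adjoin_pow hFb htr hn0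
    rw [← hrdx] at h4
    have h5 : Module.finrank K⟮x⟯ F ≤ m * nrm E := by exact_mod_cast h2
    have h6 : m * nrm E ≤ m * C := Nat.mul_le_mul_left _ hE
    omega

end Fermat.Agent.S37
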