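import Fermat.Agent.GR.ES
import Fermat.Agent.S37.Bounded

/-!
# S37, piece CG: the congruences, in terms of the Gauss setting of level `N`
-/

set_option autoImplicit false

namespace Fermat.Agent.S37

open AlgebraicCurve ModularCurve HahnSeries Fermat.Agent.S24 Fermat.Agent.S28 Fermat.Agent.S18
  Fermat.Agent.GR

variable {N : ℕ} [NeZero N] {ℓ : ℕ} {A : ValuationSubring Kb}

/-- bridge between `RC` for the Gauss setting and the `Red` calculus of `GR/ES.lean`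
(`isGauss_gaussSetting`: `IsGauss.mem_iff`, `IsGauss.rd_mul`; `gs_coe_algebraMap`). -/
theorem RC_gauss_iff (hN : (N : kA A) ≠ 0) (u : FN N) :
    RC (gaussSetting A N hN) u ↔
      ∃ c : Kb, c ≠ 0 ∧ Red A (C c * (u : LaurentSeries Kb)) 1 := by
  have hG := isGauss_gaussSetting A N hN
  have hcoe : ∀ c : Kb, ((algebraMap Kb (FN N) c * u : FN N) : LaurentSeries Kb) =
      C c * (u : LaurentSeries Kb) := by
    intro c
    rw [MulMemClass.coe_mul, gs_coe_algebraMap]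
  constructor
  · rintro ⟨c, hc, h⟩
    refine ⟨c, hc, ?_⟩
    have hmem : algebraMap Kb (FN N) c * u ∈ (gaussSetting A N hN).V :=
      (gaussSetting A N hN).mem_of_rd_ne_zero (by rw [h]; exact one_ne_zero)
    obtain ⟨Y₁, Y₂, h0, hY⟩ := (hG.mem_iff _).mp hmem
    have h2 := hG.rd_mul _ Y₁ Y₂ h0 hY
    rw [h] at h2
    refine ⟨Y₁, Y₂, h0, one_ne_zero, ?_, ?_⟩
    · rw [← hcoe]; exact hY
    · rw [← h2]; rfl
  · rintro ⟨c, hc, Y₁, Y₂, h0, -, hY, hY'⟩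
    refine ⟨c, hc, ?_⟩
    have h2 := hG.rd_mul (algebraMap Kb (FN N) c * u) Y₁ Y₂ h0 (by rw [hcoe]; exact hY)
    rw [hY'] at h2
    apply Subtype.ext
    exact mul_right_cancel₀ h0 h2

/-- first half of the proof of `GR.unram_FN` (no hypothesis on the divisor is needed there). -/
theorem RC_inertia (hℓ : ℓ.Prime) (hℓN : ¬ ℓ ∣ N) (hA : A.LiesOverPrime ℓ) (hN : (N : kA A) ≠ 0)
    {τ : GQ} (hτ : τ ∈ A.inertiaSubgroupIn ℚ) (f : FN N) (hf : f ≠ 0) :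
    RC (gaussSetting A N hN) (galF N τ f * f⁻¹) := by
  rw [RC_gauss_iff]
  obtain ⟨g, hg, rfl⟩ := hτ
  obtain ⟨c, r, hc, hX⟩ := exists_red hℓ hℓN hA f hf
  have hφ : ∀ x : A, IsLocalRing.residue A (g • x) = RingHom.id (kA A) (IsLocalRing.residue A x) := by
    intro x
    rw [IsLocalRing.ResidueField.residue_smul]
    have := MonoidHom.mem_ker.mp hg
    exact congrArg (fun e => e (IsLocalRing.residue A x)) this
  have h1 := (hX.map g _ hφ).mul hX.inv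
  rw [coeffMap_id, mul_inv_cancel₀ hX.red_ne_zero] at h1
  have hcoe : C ((g : GQ) c * c⁻¹) * ((galF N (g : GQ) f * f⁻¹ : FN N) : LaurentSeries Kb) =
      coeffMap ((g : GQ) : Kb →+* Kb) (C c * (f : LaurentSeries Kb)) *
        (C c * (f : LaurentSeries Kb))⁻¹ := by
    rw [map_mul (coeffMap _), coeffMap_C, mul_inv, map_mul C, map_inv₀]
    show _ * _ * (coeffMap _ (f : LaurentSeries Kb) * (f : LaurentSeries Kb)⁻¹) = _
    simp only [RingHom.coe_coe]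
    ring
  exact ⟨(g : GQ) c * c⁻¹, mul_ne_zero (by rw [Ne, map_eq_zero]; exact hc) (inv_ne_zero hc),
    hcoe ▸ h1⟩

/-- first half of the proof of `GR.es_FN`, with `Mop (σ f)` instead of `σ (Mop f)`
(`coeffMap_Mop` + `Mop_eq_of_isPrimitiveRoot`: `σ (Mop ζ f) = Mop (σ ζ) (σ f) = Mop ζ (σ f)`). -/
theorem RC_frobenius [NeZero ℓ] (hℓ : ℓ.Prime) (hℓN : ¬ ℓ ∣ N) (hA : A.LiesOverPrime ℓ)
    (hN : (N : kA A) ≠ 0) {σ : GQ} (hσ : A.IsFrobeniusAt σ ℓ) (f f' : FN N) (hf : f ≠ 0)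
    {ζ : Kbˣ} (hζ : IsPrimitiveRoot ζ ℓ)
    (hf' : (f' : LaurentSeries Kb) = Mop ζ ℓ ((galF N σ f : FN N) : LaurentSeries Kb)) :
    RC (gaussSetting A N hN) (galF N σ (galF N σ f) * f ^ ℓ * f'⁻¹) := by
  rw [RC_gauss_iff]
  have : Fact ℓ.Prime := ⟨hℓ⟩
  have := charP_kA hℓ hA
  obtain ⟨hσd, hσF⟩ := hσ
  have hφ : ∀ x : A, IsLocalRing.residue A ((⟨σ, hσd⟩ : A.decompositionSubgroup ℚ) • x) =
      frobenius (kA A) ℓ (IsLocalRing.residue A x) := by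
    intro x
    rw [IsLocalRing.ResidueField.residue_smul, hσF, frobenius_def]
  obtain ⟨c, r, hc, hX⟩ := exists_red hℓ hℓN hA f hf
  have hr := hX.red_ne_zero
  have hX1 := hX.map _ _ hφ
  have hM : Mop ζ ℓ (coeffMap (σ : Kb →+* Kb) (C c * (f : LaurentSeries Kb))) =
      C ((σ c) ^ (ℓ + 1)) * (f' : LaurentSeries Kb) := by
    rw [map_mul (coeffMap _), coeffMap_C, Mop_mul hζ, Mop_C, hf', coe_galF]
    rfl
  have h1 := ((hX1.map _ _ hφ).mul (hX.pow ℓ)).mul (hX1.Mop hζ).inv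
  have hinj := coeffMap_injective (frobenius (kA A) ℓ) (frobenius (kA A) ℓ).injective
  have hFF : coeffMap (frobenius (kA A) ℓ) (coeffMap (frobenius (kA A) ℓ) r) ≠ 0 := by
    intro hh
    exact hr (hinj (hinj (by rw [hh, map_zero, map_zero])))
  rw [← coeffMap_qExpand, coeffMap_frobenius_qExpand, mul_comm (r ^ ℓ),
    mul_inv_cancel₀ (mul_ne_zero hFF (pow_ne_zero _ hr))] at h1
  change Red A (_ * _ * (Mop ζ ℓ (coeffMap (σ : Kb →+* Kb) (C c * (f : LaurentSeries Kb))))⁻¹) 1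
    at h1
  rw [hM] at h1
  have hcoe : C (σ (σ c) * c ^ ℓ * ((σ c) ^ (ℓ + 1))⁻¹) *
      ((galF N σ (galF N σ f) * f ^ ℓ * f'⁻¹ : FN N) : LaurentSeries Kb) =
      coeffMap (σ : Kb →+* Kb) (coeffMap (σ : Kb →+* Kb) (C c * (f : LaurentSeries Kb))) *
        (C c * (f : LaurentSeries Kb)) ^ ℓ *
        (C ((σ c) ^ (ℓ + 1)) * (f' : LaurentSeries Kb))⁻¹ := by
    simp only [map_mul (coeffMap _), coeffMap_C, mul_inv, map_mul C, map_inv₀, mul_pow, map_pow C]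
    show _ * _ * _ * (coeffMap _ (coeffMap _ (f : LaurentSeries Kb)) * (f : LaurentSeries Kb) ^ ℓ *
      (f' : LaurentSeries Kb)⁻¹) = _
    simp only [RingHom.coe_coe]
    ring
  exact ⟨σ (σ c) * c ^ ℓ * ((σ c) ^ (ℓ + 1))⁻¹,
    mul_ne_zero (mul_ne_zero (by simpa using hc) (pow_ne_zero _ hc))
      (inv_ne_zero (pow_ne_zero _ (by simpa using hc))), by rw [hcoe]; exact h1⟩

/-- `GR.KL_red`. -/
theorem exists_pow_of_RC (hℓ : ℓ.Prime) (hℓN : ¬ ℓ ∣ N) (hA : A.LiesOverPrime ℓ)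
    (hN : (N : kA A) ≠ 0) {m : ℕ} (hm : ¬ ℓ ∣ m) (u : FN N)
    (hord : ∀ P : Place Kb (FN N), (m : ℤ) ∣ P.ord u) (h : RC (gaussSetting A N hN) u) :
    ∃ w : FN N, u = w ^ m := by
  obtain ⟨c, hc, hR⟩ := (RC_gauss_iff hN u).mp h
  exact KL_red hℓ hℓN hA hm u hord c hc hR

/-- (`S24.finrank_modularFunctionFieldFullC`, `transcendental_jFullC`, `isAlgClosed_kA`.) -/
theorem isFF_fullC (hN : (N : kA A) ≠ 0) : IsFF (kA A) (modularFunctionFieldFullC (kA A) N) := by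
  have := isAlgClosed_kA A
  exact ⟨jFullC (kA A) N, transcendental_jFullC,
    (finrank_modularFunctionFieldFullC (kA A) N hN).1⟩

end Fermat.Agent.S37
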