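import Fermat.Prelude.Def_HeckeGalois_EichlerShimura

/-!
# S37, piece W: the formal wrapper `J' = J / R₀`
-/

set_option autoImplicit false

namespace Fermat.Agent.S37

open ModularCurve

variable {K L : Type*} [Field K] [Field L] [Algebra K L]

/-- the generators of `R₀`: `τ x - x` (`τ` in the inertia group) and `σ₀² y - T_ℓ σ₀ y + ℓ y`. -/
def relGens (J : Type*) [AddCommGroup J] [Module HeckeAlg J] [DistribMulAction (L ≃ₐ[K] L) J]
    (A : ValuationSubring L) (ℓ : ℕ) (hℓ : ℓ.Prime) (σ₀ : L ≃ₐ[K] L) : Set J :=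
  {z | ∃ τ ∈ A.inertiaSubgroupIn K, ∃ x : J, z = τ • x - x} ∪
    {z | ∃ y : J, z = σ₀ • σ₀ • y - heckeGen ⟨ℓ, hℓ⟩ • (σ₀ • y) + ℓ • y}

theorem w_mem_inertiaIn_iff (A : ValuationSubring L) (τ : L ≃ₐ[K] L) :
    τ ∈ A.inertiaSubgroupIn K ↔ ∃ h : τ ∈ A.decompositionSubgroup K,
      ∀ x : IsLocalRing.ResidueField A, (⟨τ, h⟩ : A.decompositionSubgroup K) • x = x := by
  constructor
  · rintro ⟨t, ht, rfl⟩
    refine ⟨t.2, fun x => ?_⟩
    have h1 : MulSemiringAction.toRingAut (A.decompositionSubgroup K)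
        (IsLocalRing.ResidueField A) t = 1 := ht
    have := congrArg (fun f : RingAut (IsLocalRing.ResidueField A) => f x) h1
    exact this
  · rintro ⟨h, hx⟩
    refine ⟨⟨τ, h⟩, ?_, rfl⟩
    show MulSemiringAction.toRingAut (A.decompositionSubgroup K)
        (IsLocalRing.ResidueField A) ⟨τ, h⟩ = 1
    ext x
    exact hx x

theorem w_conj_mem (A : ValuationSubring L) {σ τ : L ≃ₐ[K] L}
    (hσ : σ ∈ A.decompositionSubgroup K) (hτ : τ ∈ A.inertiaSubgroupIn K) :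
    σ * τ * σ⁻¹ ∈ A.inertiaSubgroupIn K := by
  rw [w_mem_inertiaIn_iff] at hτ ⊢
  obtain ⟨h, hx⟩ := hτ
  refine ⟨mul_mem (mul_mem hσ h) (inv_mem hσ), fun x => ?_⟩
  have e : (⟨σ * τ * σ⁻¹, mul_mem (mul_mem hσ h) (inv_mem hσ)⟩ : A.decompositionSubgroup K) =
      ⟨σ, hσ⟩ * ⟨τ, h⟩ * (⟨σ, hσ⟩ : A.decompositionSubgroup K)⁻¹ := rfl
  rw [e, mul_smul, mul_smul, hx, smul_inv_smul]

theorem w_frob_mul_inv_mem (A : ValuationSubring L) {σ σ₀ : L ≃ₐ[K] L} {ℓ : ℕ}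
    (hσ : A.IsFrobeniusAt σ ℓ) (hσ₀ : A.IsFrobeniusAt σ₀ ℓ) :
    σ * σ₀⁻¹ ∈ A.inertiaSubgroupIn K := by
  rw [w_mem_inertiaIn_iff]
  have h1 := hσ.mem_decompositionSubgroup
  have h0 := hσ₀.mem_decompositionSubgroup
  refine ⟨mul_mem h1 (inv_mem h0), fun x => ?_⟩
  have e : (⟨σ * σ₀⁻¹, mul_mem h1 (inv_mem h0)⟩ : A.decompositionSubgroup K) =
      ⟨σ, h1⟩ * (⟨σ₀, h0⟩ : A.decompositionSubgroup K)⁻¹ := rfl
  rw [e, mul_smul, hσ.smul_residue_eq, ← hσ₀.smul_residue_eq, smul_inv_smul]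

/-- **W.**  `R₀ := AddSubgroup.closure relGens` is stable under `HeckeAlg` (`t (τ x - x) = τ (t x) - t x`, `t Ψ y = Ψ (t y)`, `smul_comm`) and
under `σ₀` (`σ₀ (τ x - x) = (σ₀ τ σ₀⁻¹) (σ₀ x) - σ₀ x`, the inertia group is normal in the decomposition group; `σ₀ Ψ y = Ψ (σ₀ y)`).
`J' := J ⧸ R₀` (as a `HeckeAlg`-module), `sp := mkQ`, `F` induced by `σ₀`.  Two Frobenius elements differ by an element of the inertia group. -/
theorem specialization_of_KL (p : ℕ) (J : Type) [AddCommGroup J] [Module HeckeAlg J]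
    [DistribMulAction (L ≃ₐ[K] L) J] [SMulCommClass (L ≃ₐ[K] L) HeckeAlg J]
    (A : ValuationSubring L) (ℓ : ℕ) (hℓ : ℓ.Prime) (σ₀ : L ≃ₐ[K] L) (hσ₀ : A.IsFrobeniusAt σ₀ ℓ)
    (KL : ∀ z ∈ AddSubgroup.closure (relGens J A ℓ hℓ σ₀), (∃ n : ℕ, p ^ n • z = 0) → z = 0) :
    ∃ (J' : Type) (_ : AddCommGroup J') (_ : Module HeckeAlg J') (sp : J →+ J') (F : J' →+ J'),
      IsSpecialization (K := K) p J J' A ℓ sp F ∧ SpecialFibreRelation J' ℓ hℓ F := by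
  classical
  have : SMulCommClass HeckeAlg (L ≃ₐ[K] L) J := SMulCommClass.symm _ _ _
  have h0 := hσ₀.mem_decompositionSubgroup
  set R₀ := AddSubgroup.closure (relGens J A ℓ hℓ σ₀) with hR₀
  have hnat : ∀ (g : L ≃ₐ[K] L) (n : ℕ) (y : J), g • (n • y) = n • (g • y) := fun g n y =>
    (DistribSMul.toAddMonoidHom J g).map_nsmul n y
  -- stability under Hecke
  have hT : ∀ (t : HeckeAlg) (z : J), z ∈ R₀ → t • z ∈ R₀ := by
    intro t z hz
    induction hz using AddSubgroup.closure_induction with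
    | mem z hz =>
      rcases hz with ⟨τ, hτ, x, rfl⟩ | ⟨y, rfl⟩
      · refine AddSubgroup.subset_closure (Or.inl ⟨τ, hτ, t • x, ?_⟩)
        rw [smul_sub, smul_comm t τ x]
      · refine AddSubgroup.subset_closure (Or.inr ⟨t • y, ?_⟩)
        rw [smul_add, smul_sub, smul_comm t σ₀ (σ₀ • y), smul_comm t σ₀ y,
          smul_comm t (heckeGen ⟨ℓ, hℓ⟩) (σ₀ • y), smul_comm t σ₀ y, smul_comm t ℓ y]
    | zero => rw [smul_zero]; exact zero_mem _
    | add a b _ _ ha hb => rw [smul_add]; exact add_mem ha hb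
    | neg a _ ha => rw [smul_neg]; exact neg_mem ha
  have hS : ∀ z : J, z ∈ R₀ → σ₀ • z ∈ R₀ := by
    intro z hz
    induction hz using AddSubgroup.closure_induction with
    | mem z hz =>
      rcases hz with ⟨τ, hτ, x, rfl⟩ | ⟨y, rfl⟩
      · refine AddSubgroup.subset_closure (Or.inl ⟨σ₀ * τ * σ₀⁻¹, w_conj_mem A h0 hτ, σ₀ • x, ?_⟩)
        rw [smul_sub, mul_smul, mul_smul, inv_smul_smul]
      · refine AddSubgroup.subset_closure (Or.inr ⟨σ₀ • y, ?_⟩)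
        rw [smul_add, smul_sub, hnat, smul_comm σ₀ (heckeGen ⟨ℓ, hℓ⟩) (σ₀ • y)]
    | zero => rw [smul_zero]; exact zero_mem _
    | add a b _ _ ha hb => rw [smul_add]; exact add_mem ha hb
    | neg a _ ha => rw [smul_neg]; exact neg_mem ha
  let R : Submodule HeckeAlg J :=
    { carrier := R₀
      add_mem' := fun ha hb => add_mem ha hb
      zero_mem' := zero_mem _
      smul_mem' := fun t z hz => hT t z hz }
  have hmemR : ∀ z, z ∈ R ↔ z ∈ R₀ := fun z => Iff.rfl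
  let φ₀ : J →ₗ[HeckeAlg] J :=
    { toFun := fun x => σ₀ • x
      map_add' := fun x y => smul_add _ _ _
      map_smul' := fun t x => smul_comm σ₀ t x }
  have hφ : R ≤ R.comap φ₀ := fun z hz => hS z hz
  let F : (J ⧸ R) →ₗ[HeckeAlg] (J ⧸ R) := R.mapQ R φ₀ hφ
  have hF : ∀ x : J, F (R.mkQ x) = R.mkQ (σ₀ • x) := fun x => Submodule.mapQ_apply R R φ₀ x
  have hmk : ∀ a b : J, a - b ∈ R₀ → R.mkQ a = R.mkQ b := by
    intro a b hab
    rw [← sub_eq_zero, ← map_sub, Submodule.mkQ_apply, Submodule.Quotient.mk_eq_zero]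
    exact hab
  refine ⟨J ⧸ R, inferInstance, inferInstance, R.mkQ.toAddMonoidHom, F.toAddMonoidHom,
    ⟨fun T x => map_smul R.mkQ T x, fun σ hσ x => ?_, fun σ hσ x => ?_, fun x hx hsp => ?_⟩, ?_⟩
  · exact hmk _ _ (AddSubgroup.subset_closure (Or.inl ⟨σ, hσ, x, rfl⟩))
  · show R.mkQ (σ • x) = F (R.mkQ x)
    rw [hF]
    refine hmk _ _ (AddSubgroup.subset_closure
      (Or.inl ⟨σ * σ₀⁻¹, w_frob_mul_inv_mem A hσ hσ₀, σ₀ • x, ?_⟩))
    rw [mul_smul, inv_smul_smul]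
  · refine KL x ?_ hx
    have : R.mkQ x = 0 := hsp
    rw [Submodule.mkQ_apply, Submodule.Quotient.mk_eq_zero] at this
    exact this
  · intro y
    obtain ⟨x, rfl⟩ := R.mkQ_surjective y
    show F (F (R.mkQ x)) - heckeGen ⟨ℓ, hℓ⟩ • F (R.mkQ x) + ℓ • R.mkQ x = 0
    rw [hF, hF, ← map_smul, ← map_nsmul, ← map_sub, ← map_add, Submodule.mkQ_apply,
      Submodule.Quotient.mk_eq_zero]
    exact AddSubgroup.subset_closure (Or.inr ⟨x, rfl⟩)

end Fermat.Agent.S37
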