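import Fermat.Agent.S37.NormMop
import Fermat.Agent.S37.Congr
import Fermat.Agent.S37.Wrapper

/-!
# S37, piece KLP: `R₀` has no torsion prime to `ℓ`
-/

set_option autoImplicit false

namespace Fermat.Agent.S37

open AlgebraicCurve ModularCurve HahnSeries Fermat.Agent.S24 Fermat.Agent.S28 Fermat.Agent.S18
  Fermat.Agent.GR

section aux

variable {N : ℕ}

/-- the semilinear automorphism attached to `σ`. -/
noncomputable abbrev gS (N : ℕ) (σ : GQ) : SemilinearAut Kb (FN N) :=
  arithmeticGalois (modularFunctionFieldFull N) σ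

/-- the action of `σ` on divisors as an additive map. -/
noncomputable def gDiv (N : ℕ) (σ : GQ) : Divisor Kb (FN N) →+ Divisor Kb (FN N) :=
  DistribSMul.toAddMonoidHom (Divisor Kb (FN N)) (gS N σ)

theorem gDiv_apply (σ : GQ) (D : Divisor Kb (FN N)) : gDiv N σ D = gS N σ • D := rfl

theorem gDiv_isDiv (σ : GQ) {f : FN N} {D : Divisor Kb (FN N)} (hD : ∀ v, D v = v.ord f)
    (v : Place Kb (FN N)) : gDiv N σ D v = v.ord (galF N σ f) := by
  rw [gDiv_apply, SemilinearAut.divisor_smul_apply, hD]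
  have h := SemilinearAut.ord_smul (gS N σ) ((gS N σ)⁻¹ • v) f
  rw [smul_inv_smul] at h
  exact h.symm

theorem nrm_gDiv_single (σ : GQ) (v : Place Kb (FN N)) (n : ℤ) :
    nrm (gDiv N σ (Finsupp.single v n)) = n.natAbs := by
  rw [gDiv_apply, SemilinearAut.smul_single, nrm_single]

theorem degree_gDiv (σ : GQ) (D : Divisor Kb (FN N)) :
    Divisor.degree (gDiv N σ D) = Divisor.degree D := by
  rw [gDiv_apply, SemilinearAut.degree_smul]

theorem smul_mk (σ : GQ) (D : Divisor.degZero (K := Kb) (F := FN N)) :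
    σ • (Pic0.mk D : JZero N) =
      Pic0.mk ⟨gDiv N σ D, by rw [Divisor.mem_degZero, degree_gDiv]; exact D.2⟩ := rfl

theorem mk_eq_zero_iff (D : Divisor.degZero (K := Kb) (F := FN N)) :
    (Pic0.mk D : JZero N) = 0 ↔ (D : Divisor Kb (FN N)).IsPrincipal := by
  rw [Pic0.mk, QuotientAddGroup.eq_zero_iff, AddSubgroup.mem_addSubgroupOf]
  rfl

theorem mk_sub (D E : Divisor.degZero (K := Kb) (F := FN N)) :
    (Pic0.mk (D - E) : JZero N) = Pic0.mk D - Pic0.mk E := rfl

theorem mk_neg (D : Divisor.degZero (K := Kb) (F := FN N)) :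
    (Pic0.mk (-D) : JZero N) = - Pic0.mk D := rfl

theorem mk_nsmul (n : ℕ) (D : Divisor.degZero (K := Kb) (F := FN N)) :
    (Pic0.mk (n • D) : JZero N) = n • Pic0.mk D := rfl

end aux

/-- **KL⁺.** -/
theorem KL_plus (N : ℕ) [NeZero N] (hcomm : HeckeOperatorsCommuteBar N) (ℓ : ℕ) (hℓ : ℓ.Prime)
    (hℓN : ¬ ℓ ∣ N) (A : ValuationSubring Kb) (hA : A.LiesOverPrime ℓ) (σ₀ : GQ)
    (hσ₀ : A.IsFrobeniusAt σ₀ ℓ) (m : ℕ) (hm : ¬ ℓ ∣ m) :
    letI := heckeModuleBar N
    ∀ z ∈ AddSubgroup.closure (relGens (K := ℚ) (JZero N) A ℓ hℓ σ₀), m • z = 0 → z = 0 := by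
  letI := heckeModuleBar N
  haveI : NeZero ℓ := ⟨hℓ.ne_zero⟩
  haveI := isAlgClosed_kA A
  have hN : (N : kA A) ≠ 0 := GR.natCast_kA_ne_zero hℓ hA hℓN
  set S := gaussSetting A N hN with hS
  have hFF : IsFF Kb (FN N) := isFF_FN N
  obtain ⟨E₀, hE₀, hR⟩ := exists_riemann_bound hFF
  obtain ⟨ζ₀, hζ₀⟩ := HasEnoughRootsOfUnity.exists_primitiveRoot Kb ℓ
  set ζ : Kbˣ := hζ₀.isUnit (NeZero.ne ℓ) |>.unit with hζdef
  have hζ : IsPrimitiveRoot ζ ℓ := by
    rw [← IsPrimitiveRoot.coe_units_iff]; exact hζ₀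
  -- every element of `R₀` is represented by a boundedly trivial divisor
  have key : ∀ z ∈ AddSubgroup.closure (relGens (K := ℚ) (JZero N) A ℓ hℓ σ₀),
      ∃ Z : Divisor.degZero (K := Kb) (F := FN N), (Pic0.mk Z : JZero N) = z ∧
        BddTriv S (Z : Divisor Kb (FN N)) := by
    intro z hz
    induction hz using AddSubgroup.closure_induction with
    | mem z hz =>
      rcases hz with ⟨τ, hτ, x, rfl⟩ | ⟨y, rfl⟩
      · obtain ⟨D, rfl⟩ := Pic0.mk_surjective x
        refine ⟨⟨gDiv N τ D, by rw [Divisor.mem_degZero, degree_gDiv]; exact D.2⟩ - D, ?_, ?_⟩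
        · rw [mk_sub, smul_mk]
        · have h := BddTriv.of_map (S := S) hFF hE₀ hR (gDiv N τ - AddMonoidHom.id _) 2 ?_ ?_
            (D : Divisor Kb (FN N)) D.2
          · exact h
          · intro v
            rw [AddMonoidHom.sub_apply, AddMonoidHom.id_apply]
            refine (nrm_sub_le _ _).trans ?_
            rw [nrm_gDiv_single, nrm_single]
            simp
          · intro f G hf hG
            refine ⟨galF N τ f * f⁻¹, RC_inertia hℓ hℓN hA hN hτ f hf, fun v => ?_⟩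
            have hτf : galF N τ f ≠ 0 := by
              rw [Ne, map_eq_zero_iff _ (galF N τ).injective]; exact hf
            rw [AddMonoidHom.sub_apply, AddMonoidHom.id_apply, Finsupp.sub_apply,
              gDiv_isDiv τ hG, hG, v.ord_mul hτf (inv_ne_zero hf), v.ord_inv]
            ring
      · obtain ⟨D, rfl⟩ := Pic0.mk_surjective y
        have hd1 : gDiv N σ₀ D ∈ Divisor.degZero (K := Kb) (F := FN N) := by
          rw [Divisor.mem_degZero, degree_gDiv]; exact D.2
        have hd2 : gDiv N σ₀ (gDiv N σ₀ D) ∈ Divisor.degZero (K := Kb) (F := FN N) := by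
          rw [Divisor.mem_degZero, degree_gDiv]; exact hd1
        refine ⟨⟨gDiv N σ₀ (gDiv N σ₀ D), hd2⟩ -
          ⟨TDiv N ℓ (gDiv N σ₀ D), degree_TDiv N ℓ _ hd1⟩ + ℓ • D, ?_, ?_⟩
        · rw [Pic0.mk_add, mk_sub, mk_nsmul, smul_mk, smul_mk]
          congr 2
          exact (heckeGen_smul_mk N hcomm ⟨ℓ, hℓ⟩ ⟨gDiv N σ₀ D, hd1⟩).symm
        · have h := BddTriv.of_map (S := S) hFF hE₀ hR
            ((gDiv N σ₀).comp (gDiv N σ₀) - (TDiv N ℓ).comp (gDiv N σ₀) + ℓ • AddMonoidHom.id _)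
            (1 + finrankAlong Kb (heckeBetaBar Kb N ℓ) + ℓ) ?_ ?_ (D : Divisor Kb (FN N)) D.2
          · exact h
          · intro v
            simp only [AddMonoidHom.add_apply, AddMonoidHom.sub_apply, AddMonoidHom.comp_apply,
              AddMonoidHom.nsmul_apply, AddMonoidHom.id_apply]
            refine (nrm_add_le _ _).trans (Nat.add_le_add ((nrm_sub_le _ _).trans
              (Nat.add_le_add ?_ ?_)) ?_)
            · rw [gDiv_apply _ (Finsupp.single v 1), SemilinearAut.smul_single, nrm_gDiv_single]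
              simp
            · rw [gDiv_apply _ (Finsupp.single v 1), SemilinearAut.smul_single]
              exact nrm_TDiv_single_le N ℓ _
            · rw [nrm_nsmul, nrm_single]
              simp
          · intro f G hf hG
            have hσf : galF N σ₀ f ≠ 0 := by
              rw [Ne, map_eq_zero_iff _ (galF N σ₀).injective]; exact hf
            have hσσf : galF N σ₀ (galF N σ₀ f) ≠ 0 := by
              rw [Ne, map_eq_zero_iff _ (galF N σ₀).injective]; exact hσf
            set f' : FN N := normAlpha N ℓ (heckeBetaBar Kb N ℓ (galF N σ₀ f)) with hf'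
            have hRC := RC_frobenius hℓ hℓN hA hN hσ₀ f f' hf hζ
              (coe_normAlpha_beta hℓ hℓN hζ (galF N σ₀ f))
            have hf'0 : f' ≠ 0 := by
              intro h0
              apply hRC.ne_zero
              rw [h0, inv_zero, mul_zero]
            refine ⟨_, hRC, fun v => ?_⟩
            simp only [AddMonoidHom.add_apply, AddMonoidHom.sub_apply, AddMonoidHom.comp_apply,
              AddMonoidHom.nsmul_apply, AddMonoidHom.id_apply, Finsupp.add_apply,
              Finsupp.sub_apply, Finsupp.smul_apply]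
            rw [gDiv_isDiv σ₀ (gDiv_isDiv σ₀ hG), TDiv_apply_of_isDiv N ℓ hσf (gDiv_isDiv σ₀ hG), hG,
              v.ord_mul (mul_ne_zero hσσf (pow_ne_zero _ hf)) (inv_ne_zero hf'0),
              v.ord_mul hσσf (pow_ne_zero _ hf), v.ord_inv, ← zpow_natCast, v.ord_zpow]
            simp only [nsmul_eq_mul]
            ring
    | zero => exact ⟨0, rfl, BddTriv.zero⟩
    | add z z' _ _ hz hz' =>
      obtain ⟨Z, rfl, hZ⟩ := hz
      obtain ⟨Z', rfl, hZ'⟩ := hz'
      exact ⟨Z + Z', rfl, hZ.add hZ'⟩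
    | neg z _ hz =>
      obtain ⟨Z, rfl, hZ⟩ := hz
      exact ⟨-Z, rfl, hZ.neg⟩
  intro z hz hmz
  obtain ⟨Z, rfl, hZ⟩ := key z hz
  have hm0 : m ≠ 0 := fun h0 => hm (h0 ▸ dvd_zero ℓ)
  rw [← mk_nsmul, mk_eq_zero_iff] at hmz
  obtain ⟨u, hu, hdiv⟩ := hmz
  have hdiv' : ∀ v : Place Kb (FN N), v.ord u = (m : ℤ) * (Z : Divisor Kb (FN N)) v := by
    intro v
    rw [← hdiv v]
    simp
  have hRC : RC S u := RC_of_bddTriv S hFF (isFF_fullC hN) hZ hu hdiv'
  obtain ⟨w, hw⟩ := exists_pow_of_RC hℓ hℓN hA hN hm u (fun P => ⟨_, hdiv' P⟩) hRC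
  have hw0 : w ≠ 0 := by
    rintro rfl
    rw [zero_pow hm0] at hw
    exact hu hw
  rw [mk_eq_zero_iff]
  refine ⟨w, hw0, fun v => ?_⟩
  have h1 := hdiv' v
  rw [hw, ← zpow_natCast, v.ord_zpow] at h1
  exact (mul_left_cancel₀ (by exact_mod_cast hm0) h1).symm

end Fermat.Agent.S37
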