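import Fermat.Agent.S37.FFRiemann
import Fermat.Prelude.Def_AlgebraicCurve_Correspondence

/-!
# S37, piece FI: the fundamental identity `∑ e_w = n` for extensions of function fields
-/

set_option autoImplicit false

namespace Fermat.Agent.S37

open AlgebraicCurve IntermediateField Fermat.Agent.S24 Fermat.Agent.S18

variable {K F F' : Type*} [Field K] [Field F] [Field F'] [Algebra K F] [Algebra K F'] [Algebra F F']
  [IsScalarTower K F F']

/-- `K(y) ≃ K(y')`, `y' = algebraMap y`. -/
noncomputable def adjoinEquivMap (y : F) : K⟮y⟯ ≃ₐ[K] K⟮algebraMap F F' y⟯ :=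
  (K⟮y⟯.equivMap (IsScalarTower.toAlgHom K F F')).trans
    (IntermediateField.equivOfEq (by
      rw [IntermediateField.adjoin_map, Set.image_singleton]; rfl))

theorem adjoinEquivMap_coe (y : F) (a : K⟮y⟯) :
    ((adjoinEquivMap (K := K) (F' := F') y a : K⟮algebraMap F F' y⟯) : F') = algebraMap F F' (a : F) :=
  rfl

theorem adjoinEquivMap_comp (y : F) :
    (algebraMap K⟮algebraMap F F' y⟯ F').comp
        ((adjoinEquivMap (K := K) (F' := F') y).toRingEquiv : K⟮y⟯ →+* K⟮algebraMap F F' y⟯)
      = ((RingEquiv.refl F' : F' ≃+* F') : F' →+* F').comp (algebraMap K⟮y⟯ F') := by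
  ext a
  rfl

theorem transcendental_algebraMap {y : F} (hy : Transcendental K y) :
    Transcendental K (algebraMap F F' y) :=
  (transcendental_algebraMap_iff (algebraMap F F').injective).mpr hy

/-- `F'` is finite over `K(y')`, `y' = algebraMap y`, hence over `F`. -/
theorem finite_of_isFF (hF : IsFF K F) (hF' : IsFF K F') : Module.Finite F F' := by
  obtain ⟨y, hy, -⟩ := hF
  have h1 : FiniteDimensional K⟮algebraMap F F' y⟯ F' :=
    hF'.finiteDimensional (transcendental_algebraMap hy)
  have h2 : Module.Finite K⟮y⟯ F' :=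
    Module.Finite.of_equiv_equiv (adjoinEquivMap (K := K) (F' := F') y).toRingEquiv.symm
      (RingEquiv.refl F') (by
        ext a
        obtain ⟨b, rfl⟩ := (adjoinEquivMap (K := K) (F' := F') y).surjective a
        simp
        rfl)
  exact Module.Finite.of_restrictScalars_finite K⟮y⟯ F F'

/-- tower law: `[F' : K(y')] = [F : K(y)] [F' : F]`. -/
theorem finrank_adjoin_algebraMap (hF : IsFF K F) (hF' : IsFF K F') {y : F}
    (hy : Transcendental K y) :
    Module.finrank K⟮algebraMap F F' y⟯ F' = Module.finrank K⟮y⟯ F * Module.finrank F F' := by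
  rw [Module.finrank_mul_finrank K⟮y⟯ F F']
  exact (Algebra.finrank_eq_of_equiv_equiv (adjoinEquivMap (K := K) (F' := F') y).toRingEquiv
    (RingEquiv.refl F') (adjoinEquivMap_comp y)).symm

/-- the form used below. -/
theorem sum_ramificationIndex [Algebra.IsIntegral F F'] [HasPrincipalDivisors K F']
    [IsAlgClosed K] [CharZero K] (hF : IsFF K F) (hF' : IsFF K F') (v : Place K F) :
    ∑ w ∈ v.fiber F', w.ramificationIndex F = Module.finrank F F' := by
  obtain ⟨y, hy, hyv⟩ := exists_unique_zero hF v
  have hy' : Transcendental K (algebraMap F F' y) := transcendental_algebraMap hy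
  have h1 := hF.sum_ord_zerosOf hy
  have h2 := hF'.sum_ord_zerosOf hy'
  have hz1 : zerosOf K y = {v} := by
    ext w
    simp only [zerosOf, Set.mem_ofPred_eq, Set.mem_singleton_iff]
    exact hyv w
  have hz2 : zerosOf K (algebraMap F F' y) = ↑(v.fiber F') := by
    ext w
    simp only [zerosOf, Set.mem_ofPred_eq, Finset.mem_coe, Place.mem_fiber]
    rw [w.ord_restrict y, ← hyv]
    have hepos : 0 < w.ramificationIndex F := w.ramificationIndex_pos (F := F)
    constructor
    · intro h
      exact (pos_iff_pos_of_mul_pos h).mp (by exact_mod_cast hepos)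
    · intro h
      positivity
  rw [hz1, finsum_mem_singleton] at h1
  rw [hz2, finsum_mem_coe_finset, finrank_adjoin_algebraMap hF hF' hy] at h2
  have hpos : 0 < v.ord y := (hyv v).mpr rfl
  have h3 : ∑ w ∈ v.fiber F', w.ord (algebraMap F F' y)
      = (∑ w ∈ v.fiber F', (w.ramificationIndex F : ℤ)) * v.ord y := by
    rw [Finset.sum_mul]
    refine Finset.sum_congr rfl fun w hw => ?_
    rw [w.ord_restrict y, Place.mem_fiber.mp hw]
  rw [h3] at h2
  push_cast at h2
  rw [← h1, mul_comm (v.ord y)] at h2
  have h4 := mul_right_cancel₀ hpos.ne' h2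
  exact_mod_cast h4

/-- **FI.**  Proof: `y` with unique zero `v` (`exists_unique_zero`), `y' = algebraMap F F' y`.  The zeros of `y'` are exactly the
`w` above `v` (`Place.ord_restrict`, `ramificationIndex_pos`), `ord_w y' = e_w ord_v y`.
`∑_{w} ord_w y' = [F' : K(y')] = [F' : F] [F : K(y)] = [F' : F] ord_v y` (`IsFF.sum_ord_zerosOf` twice, `finrank_adjoin_algebraMap`).
Cancel `ord_v y > 0`.  All degrees are `1` (`IsFF.deg_eq_one`). -/
theorem fundamentalIdentity_of_isFF [Algebra.IsIntegral F F'] [HasPrincipalDivisors K F']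
    [IsAlgClosed K] [CharZero K] (hF : IsFF K F) (hF' : IsFF K F') : FundamentalIdentity K F F' := by
  refine ⟨fun v => ?_⟩
  have h := sum_ramificationIndex hF hF' v
  rw [hF.deg_eq_one v, ← h]
  push_cast
  rw [mul_one]
  refine Finset.sum_congr rfl fun w _ => ?_
  rw [hF'.deg_eq_one w]
  simp

/-- residue fields are `K` (`IsFF.bijective_algebraMap_residueField`). -/
theorem inertiaDeg_eq_one [Algebra.IsIntegral F F'] [IsAlgClosed K] (hF : IsFF K F)
    (hF' : IsFF K F') (w : Place K F') : w.inertiaDeg F = 1 := by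
  have h := w.deg_restrict_mul_inertiaDeg (F := F)
  rw [hF.deg_eq_one, hF'.deg_eq_one, one_mul] at h
  exact h

end Fermat.Agent.S37
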