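import Fermat.Agent.S37.FFIdentity

/-!
# S37, piece NF: the norm formula `∑_{w | v} ord_w f = ord_v (N f)` for extensions of function fields
-/

set_option autoImplicit false

namespace Fermat.Agent.S37

open AlgebraicCurve IntermediateField Fermat.Agent.S24 Fermat.Agent.S18

variable {K F F' : Type*} [Field K] [Field F] [Field F'] [Algebra K F] [Algebra K F'] [Algebra F F']
  [IsScalarTower K F F'] [Algebra.IsIntegral F F']

omit [Algebra.IsIntegral F F'] in
/-- polynomials in an element of `O_v` are in `O_v`. -/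
theorem nf_aeval_mem (v : Place K F) {y : F} (hy : y ∈ v.toValuationSubring) (g : Polynomial K) :
    Polynomial.aeval y g ∈ v.toValuationSubring := by
  rw [Polynomial.aeval_def, Polynomial.eval₂_eq_sum, Polynomial.sum]
  exact sum_mem fun n _ => mul_mem (v.algebraMap_mem' _) (pow_mem hy n)

omit [Algebra.IsIntegral F F'] in
/-- integral over `K[y']` implies integral over `O_v` if `y ∈ O_v`. -/
theorem nf_isIntegral_of_mem_intRing (v : Place K F) {y : F} (hy : y ∈ v.toValuationSubring)
    {z : F'} (hz : z ∈ intRing K (algebraMap F F' y)) : IsIntegral v.toValuationSubring z := by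
  obtain ⟨p, hp, hpz⟩ := hz
  have hl : p.map (algebraMap _ F') ∈ Polynomial.lifts (algebraMap v.toValuationSubring F') := by
    rw [Polynomial.lifts_iff_coeff_lifts]
    intro n
    rw [Polynomial.coeff_map]
    have h1 : ((p.coeff n : polyRing K (algebraMap F F' y)) : F') ∈
        Algebra.adjoin K {algebraMap F F' y} := (p.coeff n).2
    rw [Algebra.adjoin_singleton_eq_range_aeval] at h1
    obtain ⟨g, hg⟩ := h1
    refine ⟨⟨Polynomial.aeval y g, nf_aeval_mem v hy g⟩, ?_⟩
    have h2 : Polynomial.aeval (algebraMap F F' y) g = algebraMap F F' (Polynomial.aeval y g) :=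
      Polynomial.aeval_algebraMap_apply F' y g
    exact h2.symm.trans hg
  obtain ⟨q, hq, -, hqm⟩ := Polynomial.lifts_and_degree_eq_and_monic hl (hp.map _)
  refine ⟨q, hqm, ?_⟩
  rw [← Polynomial.eval_map, hq, Polynomial.eval_map]
  exact hpz

/-- **NF-a.**  An element which is regular at all places above `v` is integral over the valuation ring of `v`.

Proof: `y` with unique zero `v` (`exists_unique_zero`), `y' = algebraMap F F' y`.  Let `w₁, …` be the finitely many poles of `f` at which
`y'` is regular (`IsFF.finite_ord_ne_zero`); they do not lie above `v`, so `c_i := y'(w_i) ≠ 0` (`IsFF.exists_residue`; `y'(w) = 0` iff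
`ord_w y' > 0` iff `w | v`).  `s := ∏ (y - c_i)^{a_i} ∈ K[y]`, `a_i = -ord_{w_i} f`, is a unit at `v`, and `s f` is regular wherever `y'` is:
`s f ∈ intRing K y'` (`RI.mem_intRing_of_forall`), i.e. integral over `K[y']`, hence over `O_v ⊇ K[y]`; `s⁻¹ ∈ O_v`. -/
theorem isIntegral_of_forall_ord_nonneg [IsAlgClosed K] [CharZero K] (hF : IsFF K F)
    (hF' : IsFF K F') (v : Place K F) {f : F'}
    (hf : ∀ w : Place K F', w.restrict F = v → 0 ≤ w.ord f) :
    IsIntegral v.toValuationSubring f := by
  classical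
  rcases eq_or_ne f 0 with rfl | hf0
  · exact isIntegral_zero
  obtain ⟨y, hy, hyv⟩ := exists_unique_zero hF v
  have hy0 : y ≠ 0 := by
    rintro rfl
    exact hy isAlgebraic_zero
  have hyv0 : 0 < v.ord y := (hyv v).mpr rfl
  have hymem : y ∈ v.toValuationSubring := (ord_nonneg_iff v hy0).mp hyv0.le
  set y' : F' := algebraMap F F' y with hy'def
  have hy' : Transcendental K y' :=
    (transcendental_algebraMap_iff (algebraMap F F').injective).mpr hy
  have hfin : FiniteDimensional K⟮y'⟯ F' := hF'.finiteDimensional hy'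
  -- the bad places
  have hSfin : {w : Place K F' | w.ord f < 0 ∧ y' ∈ w.toValuationSubring}.Finite :=
    (hF'.finite_ord_ne_zero hf0).subset fun w hw => ne_of_lt hw.1
  set S : Finset (Place K F') := hSfin.toFinset with hS
  have hSmem : ∀ w, w ∈ S ↔ (w.ord f < 0 ∧ y' ∈ w.toValuationSubring) := fun w => by
    rw [hS, Set.Finite.mem_toFinset]; rfl
  -- the values of `y'`
  have hc : ∀ w : Place K F', ∃ c : K, w ∈ S → (c ≠ 0 ∧ 0 < w.ord (y' - algebraMap K F' c)) := by
    intro w
    by_cases hw : w ∈ S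
    · obtain ⟨h1, h2⟩ := (hSmem w).mp hw
      obtain ⟨c, hc | hc⟩ := hF'.exists_residue w h2
      · exact absurd (hc ▸ isAlgebraic_algebraMap c) hy'
      · refine ⟨c, fun _ => ⟨?_, hc⟩⟩
        rintro rfl
        rw [map_zero, sub_zero, hy'def, w.ord_restrict] at hc
        have h3 : 0 < (w.restrict F).ord y := by
          by_contra h4
          have := mul_nonpos_of_nonneg_of_nonpos
            (Int.natCast_nonneg (w.ramificationIndex F)) (not_lt.mp h4)
          omega
        have := hf w ((hyv _).mp h3)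
        omega
    · exact ⟨0, fun h => absurd h hw⟩
  choose c hc using hc
  set s : F := ∏ w ∈ S, (y - algebraMap K F (c w)) ^ (- w.ord f).toNat with hs
  have hfac : ∀ w ∈ S, y - algebraMap K F (c w) ≠ 0 ∧ v.ord (y - algebraMap K F (c w)) = 0 := by
    intro w hw
    have hcw : algebraMap K F (c w) ≠ 0 := by simpa using (hc w hw).1
    have h1 : v.ord (-algebraMap K F (c w) + y) = v.ord (-algebraMap K F (c w)) :=
      ord_add_eq_of_lt v (neg_ne_zero.mpr hcw) hy0 (by rw [ord_neg, ord_algebraMap]; exact hyv0)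
    rw [ord_neg, ord_algebraMap, neg_add_eq_sub] at h1
    refine ⟨?_, h1⟩
    intro h0
    exact hy (by rw [sub_eq_zero.mp h0]; exact isAlgebraic_algebraMap _)
  have hs0 : s ≠ 0 := Finset.prod_ne_zero_iff.mpr fun w hw => pow_ne_zero _ (hfac w hw).1
  have hsinv : s⁻¹ ∈ v.toValuationSubring := by
    rw [hs, ← Finset.prod_inv_distrib]
    refine prod_mem fun w hw => ?_
    rw [← inv_pow]
    refine pow_mem ?_ _
    rw [← ord_nonneg_iff v (inv_ne_zero (hfac w hw).1), v.ord_inv, (hfac w hw).2]
    simp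
  have hsf : algebraMap F F' s * f ∈ intRing K y' := by
    refine RI.mem_intRing_of_forall hy' fun w hw => ?_
    have hmem : ∀ w' : Place K F', algebraMap F F' (y - algebraMap K F (c w')) ∈
        w.toValuationSubring := by
      intro w'
      rw [map_sub, ← IsScalarTower.algebraMap_apply]
      exact sub_mem hw (w.algebraMap_mem' _)
    by_cases hwf : 0 ≤ w.ord f
    · refine mul_mem ?_ ((ord_nonneg_iff w hf0).mp hwf)
      rw [hs, map_prod]
      refine prod_mem fun w' _ => ?_
      rw [map_pow]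
      exact pow_mem (hmem w') _
    · have hwS : w ∈ S := (hSmem w).mpr ⟨not_le.mp hwf, hw⟩
      rw [hs, ← Finset.mul_prod_erase S _ hwS, map_mul, mul_right_comm]
      refine mul_mem ?_ ?_
      · have h1 : algebraMap F F' (y - algebraMap K F (c w)) ≠ 0 :=
          (map_ne_zero (algebraMap F F')).mpr (hfac w hwS).1
        rw [map_pow, ← ord_nonneg_iff w (mul_ne_zero (pow_ne_zero _ h1) hf0),
          w.ord_mul (pow_ne_zero _ h1) hf0, ord_pow]
        have h2 := (hc w hwS).2
        rw [hy'def, IsScalarTower.algebraMap_apply K F F', ← map_sub] at h2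
        have h3 : ((-w.ord f).toNat : ℤ) = - w.ord f := Int.toNat_of_nonneg (by omega)
        rw [h3]
        nlinarith
      · rw [map_prod]
        refine prod_mem fun w' _ => ?_
        rw [map_pow]
        exact pow_mem (hmem w') _
  have h1 : IsIntegral v.toValuationSubring (algebraMap F F' s * f) :=
    nf_isIntegral_of_mem_intRing v hymem hsf
  have h2 : IsIntegral v.toValuationSubring (algebraMap F F' s⁻¹) :=
    isIntegral_algebraMap (R := v.toValuationSubring) (x := ⟨s⁻¹, hsinv⟩)
  have h3 := h2.mul h1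
  rwa [← mul_assoc, ← map_mul, inv_mul_cancel₀ hs0, map_one, one_mul] at h3

/-- **NF-b.**  (`Algebra.isIntegral_norm`, `O_v` integrally closed.) -/
theorem ord_norm_nonneg [IsAlgClosed K] [CharZero K] (hF : IsFF K F) (hF' : IsFF K F')
    (v : Place K F) {f : F'} (hf : ∀ w : Place K F', w.restrict F = v → 0 ≤ w.ord f) :
    0 ≤ v.ord (Algebra.norm F f) := by
  have h1 : IsIntegral v.toValuationSubring (Algebra.norm F f) :=
    Algebra.isIntegral_norm F (isIntegral_of_forall_ord_nonneg hF hF' v hf)
  obtain ⟨a, ha⟩ := IsIntegrallyClosed.isIntegral_iff.mp h1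
  rcases eq_or_ne (Algebra.norm F f) 0 with h0 | h0
  · rw [h0, v.ord_zero]
  · rw [ord_nonneg_iff v h0, ← ha]
    exact a.2

/-- polynomials over `O_v` in an element of `O_w`, `w | v`, are in `O_w`. -/
theorem nf_aeval_mem' {v : Place K F} {w : Place K F'} (hw : w.restrict F = v) {f : F'}
    (hf : f ∈ w.toValuationSubring) (g : Polynomial v.toValuationSubring) :
    Polynomial.aeval f g ∈ w.toValuationSubring := by
  rw [Polynomial.aeval_def, Polynomial.eval₂_eq_sum, Polynomial.sum]
  refine sum_mem fun n _ => mul_mem ?_ (pow_mem hf n)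
  have h1 : ((g.coeff n : v.toValuationSubring) : F) ∈ (w.restrict F).toValuationSubring := by
    rw [hw]; exact (g.coeff n).2
  exact (Place.mem_restrict_iff w).mp h1

/-- **NF-c.**  If moreover `f` vanishes at some `w₀` above `v`, then `N f` vanishes at `v`.

Proof: otherwise `N f` is a unit of `O_v`.  The minimal polynomial `X^d + … + c₀` of `f` over `F` has coefficients in `O_v`
(`minpoly.isIntegrallyClosed_eq_field_fractions'`, or `Polynomial.isIntegral_coeff_of_dvd`), `N f = ± c₀^{n/d}`
(`Algebra.norm_eq_norm_adjoin`, `PowerBasis.norm_gen_eq_coeff_zero_minpoly`), so `c₀` is a unit of `O_v` and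
`f (f^{d-1} + … + c₁) = - c₀` shows `ord_{w₀} f ≤ ord_{w₀} c₀ = 0`. -/
theorem ord_norm_pos [IsAlgClosed K] [CharZero K] (hF : IsFF K F) (hF' : IsFF K F')
    (v : Place K F) {f : F'} (hf0 : f ≠ 0)
    (hf : ∀ w : Place K F', w.restrict F = v → 0 ≤ w.ord f)
    {w₀ : Place K F'} (hw₀ : w₀.restrict F = v) (hpos : 0 < w₀.ord f) :
    0 < v.ord (Algebra.norm F f) := by
  have hint : IsIntegral v.toValuationSubring f := isIntegral_of_forall_ord_nonneg hF hF' v hf
  have hintF : IsIntegral F f := Algebra.IsIntegral.isIntegral f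
  have hfin : Module.Finite F F' := finite_of_isFF hF hF'
  set p := minpoly v.toValuationSubring f with hp
  have hmin : minpoly F f = p.map (algebraMap v.toValuationSubring F) :=
    minpoly.isIntegrallyClosed_eq_field_fractions' F hint
  set c₀ : F := algebraMap v.toValuationSubring F (p.coeff 0) with hc₀
  have hc₀' : (minpoly F f).coeff 0 = c₀ := by
    rw [hmin, Polynomial.coeff_map]
  have hc₀0 : c₀ ≠ 0 := hc₀' ▸ minpoly.coeff_zero_ne_zero hintF hf0
  -- the norm
  have hnorm : Algebra.norm F f =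
      ((-1) ^ (adjoin.powerBasis hintF).dim * c₀) ^ Module.finrank F⟮f⟯ F' := by
    rw [Algebra.norm_eq_norm_adjoin F f]
    congr 1
    have h1 := Algebra.PowerBasis.norm_gen_eq_coeff_zero_minpoly (adjoin.powerBasis hintF)
    rw [adjoin.powerBasis_gen, minpoly_gen, hc₀'] at h1
    exact h1
  have hm : 0 < Module.finrank F⟮f⟯ F' := Module.finrank_pos
  -- `c₀` vanishes at `w₀`
  have hrel : f * Polynomial.aeval f p.divX + algebraMap F F' c₀ = 0 := by
    have h1 : Polynomial.aeval f p = 0 := minpoly.aeval _ _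
    rw [← Polynomial.divX_mul_X_add p, map_add, map_mul, Polynomial.aeval_X,
      Polynomial.aeval_C] at h1
    rw [mul_comm]
    exact h1
  have hc₀F' : algebraMap F F' c₀ ≠ 0 := (map_ne_zero _).mpr hc₀0
  have hq0 : Polynomial.aeval f p.divX ≠ 0 := by
    intro h0
    rw [h0, mul_zero, zero_add] at hrel
    exact hc₀F' hrel
  have hq : 0 ≤ w₀.ord (Polynomial.aeval f p.divX) := by
    rw [ord_nonneg_iff w₀ hq0]
    exact nf_aeval_mem' hw₀ ((ord_nonneg_iff w₀ hf0).mp hpos.le) _
  have h1 : 0 < w₀.ord (algebraMap F F' c₀) := by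
    rw [eq_neg_of_add_eq_zero_right hrel, ord_neg, w₀.ord_mul hf0 hq0]
    omega
  rw [w₀.ord_restrict, hw₀] at h1
  have h2 : 0 < v.ord c₀ := by
    by_contra h4
    have := mul_nonpos_of_nonneg_of_nonpos
      (Int.natCast_nonneg (w₀.ramificationIndex F)) (not_lt.mp h4)
    omega
  have h3 : v.ord ((-1 : F) ^ (adjoin.powerBasis hintF).dim) = 0 := by
    rw [ord_pow, ord_neg, v.ord_one, mul_zero]
  rw [hnorm, ord_pow, v.ord_mul (pow_ne_zero _ (neg_ne_zero.mpr one_ne_zero)) hc₀0, h3, zero_add]
  positivity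

omit [Algebra K F'] [Algebra F F'] [IsScalarTower K F F'] [Algebra.IsIntegral F F'] [Field F'] in
theorem nf_ord_prod {ι : Type*} (v : Place K F) (s : Finset ι) (g : ι → F)
    (hg : ∀ i ∈ s, g i ≠ 0) : v.ord (∏ i ∈ s, g i) = ∑ i ∈ s, v.ord (g i) := by
  classical
  induction s using Finset.induction_on with
  | empty => simp
  | insert i s hi ih =>
    rw [Finset.prod_insert hi, Finset.sum_insert hi,
      v.ord_mul (hg i (Finset.mem_insert_self i s))
        (Finset.prod_ne_zero_iff.mpr fun j hj => hg j (Finset.mem_insert_of_mem hj)),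
      ih fun j hj => hg j (Finset.mem_insert_of_mem hj)]

/-- **NF-d.**  `W` = fibre of `v`; `t_w` (`w ∈ W`) from `exists_ord_eq_one`; `a_w := ord_v (N t_w) ≥ 1` (NF-c).
For `f ≠ 0`, `f / ∏ t_w^{ord_w f}` and its inverse are regular above `v`, so its norm is a unit at `v` (NF-b twice):
`ord_v (N f) = ∑ a_w ord_w f`.  For `f = algebraMap F F' g`, `ord_v g = 1`: `n = ∑ a_w e_w`, and `n = ∑ e_w` (`sum_ramificationIndex`),
`e_w ≥ 1`: all `a_w = 1`. -/
theorem ord_norm_eq_sum [HasPrincipalDivisors K F'] [IsAlgClosed K] [CharZero K] (hF : IsFF K F)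
    (hF' : IsFF K F') (v : Place K F) {f : F'} (hf0 : f ≠ 0) :
    v.ord (Algebra.norm F f) = ∑ w ∈ v.fiber F', w.ord f := by
  classical
  have hfin : Module.Finite F F' := finite_of_isFF hF hF'
  set W := v.fiber F' with hW
  have ht : ∀ w : Place K F', ∃ t : F', t ≠ 0 ∧ w.ord t = 1 ∧ ∀ w' ∈ W, w' ≠ w → w'.ord t = 0 :=
    fun w => exists_ord_eq_one hF' W w
  choose t ht0 ht1 ht2 using ht
  set a : Place K F' → ℤ := fun w => v.ord (Algebra.norm F (t w)) with ha
  have ha1 : ∀ w ∈ W, 1 ≤ a w := by
    intro w hw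
    refine ord_norm_pos hF hF' v (ht0 w) (fun w' hw' => ?_) (Place.mem_fiber.mp hw)
      (by rw [ht1]; exact one_pos)
    by_cases h : w' = w
    · rw [h, ht1]; exact zero_le_one
    · rw [ht2 w w' (Place.mem_fiber.mpr hw') h]
  -- general formula
  have key : ∀ g : F', g ≠ 0 → v.ord (Algebra.norm F g) = ∑ w ∈ W, w.ord g * a w := by
    intro g hg
    set P : F' := ∏ w ∈ W, t w ^ (w.ord g) with hP
    have hP0 : P ≠ 0 := Finset.prod_ne_zero_iff.mpr fun w _ => zpow_ne_zero _ (ht0 w)
    have hordP : ∀ w ∈ W, w.ord P = w.ord g := by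
      intro w hw
      rw [hP, nf_ord_prod w W _ fun w' _ => zpow_ne_zero _ (ht0 w'), Finset.sum_eq_single w]
      · rw [w.ord_zpow, ht1, mul_one]
      · intro w' _ hne
        rw [w.ord_zpow, ht2 w' w hw (Ne.symm hne), mul_zero]
      · intro h; exact absurd hw h
    have hu : ∀ w : Place K F', w.restrict F = v → w.ord (g / P) = 0 := by
      intro w hw
      rw [div_eq_mul_inv, w.ord_mul hg (inv_ne_zero hP0), w.ord_inv,
        hordP w (Place.mem_fiber.mpr hw)]
      omega
    have h1 := ord_norm_nonneg hF hF' v (f := g / P) (fun w hw => (hu w hw).ge)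
    have h2 := ord_norm_nonneg hF hF' v (f := (g / P)⁻¹)
      (fun w hw => by rw [w.ord_inv, hu w hw]; simp)
    rw [Algebra.norm_inv, v.ord_inv] at h2
    have h3 : v.ord (Algebra.norm F (g / P)) = 0 := by omega
    have hNg : Algebra.norm F g ≠ 0 := Algebra.norm_ne_zero_iff.mpr hg
    have hNP : Algebra.norm F P ≠ 0 := Algebra.norm_ne_zero_iff.mpr hP0
    rw [div_eq_mul_inv, map_mul, Algebra.norm_inv, v.ord_mul hNg (inv_ne_zero hNP),
      v.ord_inv] at h3
    have h4 : v.ord (Algebra.norm F P) = ∑ w ∈ W, w.ord g * a w := by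
      rw [hP, map_prod, nf_ord_prod v W _ fun w _ =>
        Algebra.norm_ne_zero_iff.mpr (zpow_ne_zero _ (ht0 w))]
      refine Finset.sum_congr rfl fun w _ => ?_
      rw [Algebra.norm_zpow, v.ord_zpow]
    omega
  -- the `a w` are `1`
  obtain ⟨π, hπ⟩ := S24.exists_ord_eq_one v
  have hπ0 : π ≠ 0 := by
    rintro rfl
    rw [v.ord_zero] at hπ
    exact zero_ne_one hπ
  have h5 := key (algebraMap F F' π) ((map_ne_zero _).mpr hπ0)
  rw [Algebra.norm_algebraMap, ord_pow, hπ, mul_one, ← sum_ramificationIndex hF hF' v] at h5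
  have h6 : ∑ w ∈ W, ((w.ramificationIndex F : ℕ) : ℤ) * (a w - 1) = 0 := by
    have h7 : ∀ w ∈ W, w.ord (algebraMap F F' π) * a w = (w.ramificationIndex F : ℤ) * a w := by
      intro w hw
      rw [w.ord_restrict, Place.mem_fiber.mp hw, hπ, mul_one]
    rw [Finset.sum_congr rfl h7] at h5
    push_cast at h5
    simp only [mul_sub, mul_one, Finset.sum_sub_distrib]
    rw [← h5, sub_self]
  have h8 := (Finset.sum_eq_zero_iff_of_nonneg (fun w hw =>
    mul_nonneg (Int.natCast_nonneg _) (by have := ha1 w hw; omega))).mp h6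
  rw [key f hf0]
  refine Finset.sum_congr rfl fun w hw => ?_
  have h9 := h8 w hw
  have h10 : ((w.ramificationIndex F : ℕ) : ℤ) ≠ 0 := by
    have := w.ramificationIndex_pos (F := F)
    omega
  have h11 : a w = 1 := by
    rcases mul_eq_zero.mp h9 with h | h
    · exact absurd h h10
    · omega
  rw [h11, mul_one]

/-- **NF.**  (`Divisor.pushforward_apply`, `inertiaDeg_eq_one`, `ord_norm_eq_sum`.) -/
theorem pushforwardNormFormula_of_isFF [Module.Finite F F'] [IsAlgClosed K] [CharZero K]
    (hF : IsFF K F) (hF' : IsFF K F') : Divisor.PushforwardNormFormula K F F' := by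
  classical
  have := hasPrincipalDivisors_of_isFF hF'
  intro f hf0 D hD v
  rw [Divisor.pushforward_apply, ord_norm_eq_sum hF hF' v hf0, ← Finset.sum_filter]
  have h1 : ∀ w ∈ D.support.filter (fun w => w.restrict F = v),
      D w * (w.inertiaDeg F : ℤ) = w.ord f := by
    intro w _
    rw [inertiaDeg_eq_one hF hF', hD]
    simp
  rw [Finset.sum_congr rfl h1]
  refine Finset.sum_subset ?_ ?_
  · intro w hw
    exact Place.mem_fiber.mpr (Finset.mem_filter.mp hw).2
  · intro w hw hw'
    by_contra h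
    refine hw' (Finset.mem_filter.mpr ⟨?_, Place.mem_fiber.mp hw⟩)
    rw [Finsupp.mem_support_iff, hD]
    exact h

end Fermat.Agent.S37
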