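import Fermat.Agent.S18.Riemann

/-!
# S37, piece RI1: principal divisors and the uniform Riemann bound
-/

set_option autoImplicit false

namespace Fermat.Agent.S37.RI1

open AlgebraicCurve IntermediateField Fermat.Agent.S24 Fermat.Agent.S18 Fermat.Agent.S18.RI Polynomial

variable {K F : Type*} [Field K] [Field F] [Algebra K F]

/-- principal divisors exist. -/
theorem hasPrincipalDivisors_of_isFF [IsAlgClosed K] [CharZero K] (hFF : IsFF K F) :
    HasPrincipalDivisors K F := by
  classical
  refine ⟨fun f hf => ?_⟩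
  let D : Divisor K F := Finsupp.onFinset (hFF.finite_ord_ne_zero hf).toFinset (fun v => v.ord f)
    (by intro v hv; rw [Set.Finite.mem_toFinset]; exact hv)
  have hD : ∀ v, D v = v.ord f := fun v => rfl
  exact ⟨D, hD, hFF.degree_eq_zero_of_principal hf D hD⟩

theorem degree_eq_finsum [IsAlgClosed K] (hFF : IsFF K F) (D : Divisor K F) :
    Divisor.degree D = ∑ᶠ v, D v := by
  classical
  have hdeg : Divisor.degree D = ∑ v ∈ D.support, D v := by
    simp only [Divisor.degree, Finsupp.liftAddHom_apply, Finsupp.sum, AddMonoidHom.coe_mulRight]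
    refine Finset.sum_congr rfl fun v _ => ?_
    rw [hFF.deg_eq_one v]
    simp
  rw [hdeg, finsum_eq_sum_of_support_subset (s := D.support)]
  intro v hv
  rw [Finset.mem_coe, Finsupp.mem_support_iff]
  exact hv

/-- a function `h₁ ≠ 0` with `D ≤ div h₁` wherever `x` is regular. -/
theorem exists_numerator [IsAlgClosed K] (hFF : IsFF K F) {x : F} (hx : Transcendental K x)
    (D : Divisor K F) :
    ∃ h₁ : F, h₁ ≠ 0 ∧ ∀ v : Place K F, 0 ≤ v.ord x → D v ≤ v.ord h₁ := by
  classical
  have hx0 : x ≠ 0 := by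
    rintro rfl
    exact hx isAlgebraic_zero
  have hne : ∀ c : K, x - algebraMap K F c ≠ 0 := by
    intro c h0
    apply hx
    rw [sub_eq_zero.mp h0]
    exact isAlgebraic_algebraMap c
  have hex : ∀ v : Place K F, ∃ c : K, 0 ≤ v.ord x → 0 < v.ord (x - algebraMap K F c) := by
    intro v
    by_cases hv : 0 ≤ v.ord x
    · obtain ⟨c, hc⟩ := hFF.exists_residue v ((ord_nonneg_iff v hx0).mp hv)
      refine ⟨c, fun _ => hc.resolve_left fun h0 => hne c (sub_eq_zero.mpr h0)⟩
    · exact ⟨0, fun h => absurd h hv⟩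
  choose c hc using hex
  refine ⟨∏ v ∈ D.support, (x - algebraMap K F (c v)) ^ (D v).toNat,
    Finset.prod_ne_zero_iff.mpr fun v _ => pow_ne_zero _ (hne _), fun w hw => ?_⟩
  have hreg : ∀ a : K, 0 ≤ w.ord (x - algebraMap K F a) := by
    intro a
    rw [ord_nonneg_iff w (hne a)]
    exact sub_mem ((ord_nonneg_iff w hx0).mp hw) (w.algebraMap_mem' a)
  have hprod : ∀ s : Finset (Place K F),
      w.ord (∏ v ∈ s, (x - algebraMap K F (c v)) ^ (D v).toNat) =
        ∑ v ∈ s, ((D v).toNat : ℤ) * w.ord (x - algebraMap K F (c v)) := by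
    intro s
    induction s using Finset.induction_on with
    | empty => simp
    | insert a s ha ih =>
      rw [Finset.prod_insert ha, Finset.sum_insert ha,
        w.ord_mul (pow_ne_zero _ (hne _))
          (Finset.prod_ne_zero_iff.mpr fun v _ => pow_ne_zero _ (hne _)), ih, ord_pow]
  rw [hprod]
  by_cases hwD : w ∈ D.support
  · have h1 : ((D w).toNat : ℤ) * w.ord (x - algebraMap K F (c w)) ≤
        ∑ v ∈ D.support, ((D v).toNat : ℤ) * w.ord (x - algebraMap K F (c v)) :=
      Finset.single_le_sum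
        (f := fun v => ((D v).toNat : ℤ) * w.ord (x - algebraMap K F (c v)))
        (fun v _ => mul_nonneg (Int.natCast_nonneg _) (hreg _)) hwD
    have h2 : ((D w).toNat : ℤ) ≤ ((D w).toNat : ℤ) * w.ord (x - algebraMap K F (c w)) :=
      le_mul_of_one_le_right (Int.natCast_nonneg _) (hc w hw)
    have h3 := Int.self_le_toNat (D w)
    omega
  · rw [Finsupp.notMem_support_iff.mp hwD]
    exact Finset.sum_nonneg fun v _ => mul_nonneg (Int.natCast_nonneg _) (hreg _)

/-- **RI-1 (uniform Riemann).** -/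
theorem exists_riemann_bound [IsAlgClosed K] [CharZero K] (hFF : IsFF K F) :
    ∃ E₀ : Divisor K F, (∀ v, 0 ≤ E₀ v) ∧ ∀ D : Divisor K F, Divisor.degree D = 0 →
      ∃ f : F, f ≠ 0 ∧ ∀ v : Place K F, 0 ≤ v.ord f + D v + E₀ v := by
  classical
  obtain ⟨x, hx, hfd⟩ := hFF
  have hFF : IsFF K F := ⟨x, hx, hfd⟩
  have hx0 : x ≠ 0 := by
    rintro rfl
    exact hx isAlgebraic_zero
  have hxi : Transcendental K x⁻¹ := transcendental_inv hx
  have hfdi : FiniteDimensional K⟮x⁻¹⟯ F := by rw [adjoin_inv_eq]; infer_instance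
  set μ := Module.finrank K⟮x⟯ F with hμ
  obtain ⟨o, ho⟩ := exists_isIntBasis (k := K) hx
  obtain ⟨o', ho'⟩ : ∃ o' : Fin μ → F, IsIntBasis (K := K) x⁻¹ o' := by
    have h1 := exists_isIntBasis (k := K) hxi
    rwa [adjoin_inv_eq] at h1
  obtain ⟨a, s, G, c, hc, hdet, he⟩ := exists_transition hx o o' ho ho'
  obtain ⟨N₀, hN₀⟩ := finrank_Lsp hx o o' ho ho' G c hc s a hdet he
  let E₀ : Divisor K F := Finsupp.onFinset (hFF.finite_ord_ne_zero hx0).toFinset
    (fun v => (N₀ : ℤ) * max (v.ord x) 0) (by
      intro v hv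
      rw [Set.Finite.mem_toFinset]
      intro h0
      apply hv
      rw [h0]; simp)
  have hE₀ : ∀ v, E₀ v = (N₀ : ℤ) * max (v.ord x) 0 := fun v => rfl
  refine ⟨E₀, fun v => ?_, fun E hdegE => ?_⟩
  · rw [hE₀]
    exact mul_nonneg (Int.natCast_nonneg _) (le_max_right _ _)
  obtain ⟨h₁, hh0, hh₁⟩ := exists_numerator hFF hx E
  -- the exponent at infinity
  have hpolesfin : (zerosOf K x⁻¹).Finite := hFF.zerosOf_finite (inv_ne_zero hx0)
  let e : ℕ := ∑ v ∈ hpolesfin.toFinset, (E v - v.ord h₁).toNat
  have he_le : ∀ v : Place K F, v.ord x < 0 → E v - v.ord h₁ ≤ e := by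
    intro v hv
    have hmem : v ∈ hpolesfin.toFinset := by
      rw [Set.Finite.mem_toFinset]
      change 0 < v.ord x⁻¹
      rw [v.ord_inv]; omega
    have h1 : (E v - v.ord h₁).toNat ≤ e :=
      Finset.single_le_sum (f := fun v : Place K F => (E v - v.ord h₁).toNat)
        (fun _ _ => Nat.zero_le _) hmem
    have h2 := Int.self_le_toNat (E v - v.ord h₁)
    omega
  let B : Place K F → ℤ := fun v => v.ord h₁ + e * max (-(v.ord x)) 0
  have hBE : ∀ v, E v ≤ B v := by
    intro v
    simp only [B]
    rcases le_or_gt 0 (v.ord x) with hv | hv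
    · rw [max_eq_right (by omega), mul_zero, add_zero]
      exact hh₁ v hv
    · rw [max_eq_left (by omega)]
      have h1 := he_le v hv
      have h2 : (e : ℤ) ≤ e * (-(v.ord x)) :=
        le_mul_of_one_le_right (Int.natCast_nonneg _) (by omega)
      omega
  set n := N₀ with hn
  let D : Place K F → ℤ := fun v => Dab (K := K) x n 0 v + B v
  let D' : Place K F → ℤ := fun v => Dab (K := K) x n 0 v + E v
  -- `L(D) ≃ Lsp n e`
  have hmap : (LDiv D).map (LinearMap.mulLeft K h₁) = Lsp K x n e := by
    rw [Lsp_eq_LDiv hx]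
    have hDab : ∀ v : Place K F, Dab (K := K) x n e v = D v - v.ord h₁ := by
      intro v
      simp only [D, B, Dab]
      push_cast
      ring
    ext z
    rw [Submodule.mem_map]
    constructor
    · rintro ⟨f, hf, rfl⟩
      rw [LinearMap.mulLeft_apply]
      rcases hf with rfl | hf
      · exact Or.inl (mul_zero _)
      by_cases hf0 : f = 0
      · exact Or.inl (by rw [hf0, mul_zero])
      refine Or.inr fun v => ?_
      rw [v.ord_mul hh0 hf0, hDab]
      have := hf v
      omega
    · intro hz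
      refine ⟨h₁⁻¹ * z, ?_, ?_⟩
      · rcases hz with rfl | hz
        · exact Or.inl (mul_zero _)
        by_cases hz0 : z = 0
        · exact Or.inl (by rw [hz0, mul_zero])
        refine Or.inr fun v => ?_
        rw [v.ord_mul (inv_ne_zero hh0) hz0, v.ord_inv]
        have := hz v
        rw [hDab] at this
        omega
      · rw [LinearMap.mulLeft_apply, mul_inv_cancel_left₀ hh0]
  let eqv : LDiv D ≃ₗ[K] Lsp K x n e :=
    (Submodule.equivMapOfInjective (LinearMap.mulLeft K h₁) (mul_right_injective₀ hh0)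
      (LDiv D)).trans (LinearEquiv.ofEq _ _ hmap)
  obtain ⟨hfd1, hdim1⟩ := hN₀ n e (by omega)
  obtain ⟨hfd0, hdim0⟩ := hN₀ n 0 (by omega)
  have hfdD : FiniteDimensional K (LDiv D) := Module.Finite.equiv eqv.symm
  have hDD' : ∀ v, D' v ≤ D v := fun v => by
    simp only [D, D']
    have := hBE v
    omega
  have hfdD' : FiniteDimensional K (LDiv D') := Submodule.finiteDimensional_of_le (LDiv_mono hDD')
  -- supports
  have hs1 : (Function.support fun v : Place K F => v.ord h₁).Finite :=
    hFF.finite_ord_ne_zero hh0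
  have hs2 : (Function.support fun v : Place K F => (e : ℤ) * max (-(v.ord x)) 0).Finite := by
    refine (support_poles_finite hFF hx0).subset ?_
    intro v hv
    rw [Function.mem_support] at hv ⊢
    intro h0
    apply hv
    rw [h0, mul_zero]
  have hs3 : (Function.support E).Finite := E.hasFiniteSupport
  have hsumE : ∑ᶠ v, E v = 0 := by
    rw [← degree_eq_finsum hFF, hdegE]
  have hdiff : ∀ v, D v - D' v = (v.ord h₁ + (e : ℤ) * max (-(v.ord x)) 0) - E v := by
    intro v
    simp only [D, D', B]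
    ring
  have hs12 : (Function.support fun v : Place K F =>
      v.ord h₁ + (e : ℤ) * max (-(v.ord x)) 0).Finite :=
    (hs1.union hs2).subset (Function.support_add _ _)
  have hsum : ∑ᶠ v, (D v - D' v) = (e : ℤ) * μ := by
    rw [finsum_congr hdiff, finsum_sub_distrib hs12 hs3, finsum_add_distrib hs1 hs2,
      finsum_ord_eq_zero hFF hh0, hsumE, ← mul_finsum, finsum_poles hFF hx]
    ring
  have hfin : (Function.support fun v => D v - D' v).Finite := by
    have : (fun v => D v - D' v) = fun v =>
        (v.ord h₁ + (e : ℤ) * max (-(v.ord x)) 0) - E v := funext hdiff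
    rw [this]
    exact (hs12.union hs3).subset (Function.support_sub _ _)
  have hmain := finrank_LDiv_le hFF D D' hDD' hfin
  rw [hsum, eqv.finrank_eq] at hmain
  have hge : Module.finrank K (Lsp K x n 0) ≤ Module.finrank K (LDiv D') := by
    have h2 : (Module.finrank K (Lsp K x n e) : ℤ) =
        Module.finrank K (Lsp K x n 0) + (e : ℤ) * μ := by
      have h1 : μ * (n + e + 1) = μ * (n + 0 + 1) + e * μ := by ring
      have : Module.finrank K (Lsp K x n e) = Module.finrank K (Lsp K x n 0) + e * μ := by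
        rw [← hμ] at hdim1 hdim0
        omega
      exact_mod_cast this
    rw [h2] at hmain
    have : (Module.finrank K (Lsp K x n 0) : ℤ) ≤ Module.finrank K (LDiv D') := by linarith
    exact_mod_cast this
  have hpos : 0 < Module.finrank K (Lsp K x n 0) := by
    have h1 : (1 : F) ∈ Lsp K x n 0 := by
      rw [mem_Lsp_iff hx]
      refine Or.inr fun v => ?_
      simp only [Dab, Place.ord_one]
      have : (0 : ℤ) ≤ (n : ℤ) * max (v.ord x) 0 :=
        mul_nonneg (Int.natCast_nonneg _) (le_max_right _ _)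
      push_cast
      linarith
    have : Nontrivial (Lsp K x n 0) :=
      ⟨⟨⟨1, h1⟩, 0, fun h => one_ne_zero (congrArg Subtype.val h)⟩⟩
    exact Module.finrank_pos
  have hpos' : 0 < Module.finrank K (LDiv D') := lt_of_lt_of_le hpos hge
  have hnt : Nontrivial (LDiv D') := Module.nontrivial_of_finrank_pos hpos'
  obtain ⟨⟨f, hf⟩, hf0⟩ := exists_ne (0 : LDiv D')
  have hf0' : f ≠ 0 := fun h => hf0 (Subtype.ext h)
  refine ⟨f, hf0', fun v => ?_⟩
  have h1 := (hf.resolve_left hf0') v
  simp only [D', Dab] at h1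
  rw [hE₀]
  push_cast at h1
  linarith

end Fermat.Agent.S37.RI1
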