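import Fermat.Agent.S18.Riemann

/-!
# S37, piece RI2: every place of a function field is the unique zero of some function
(the uniform Riemann bound RI-1 is passed as a hypothesis).
-/

set_option autoImplicit false

namespace Fermat.Agent.S37.RI2

open AlgebraicCurve IntermediateField Fermat.Agent.S24 Fermat.Agent.S18

variable {K F : Type*} [Field K] [Field F] [Algebra K F]

/-- a transcendental element has a zero. -/
theorem exists_zero [IsAlgClosed K] [CharZero K] (hFF : IsFF K F) {y : F}
    (hy : Transcendental K y) : ∃ P : Place K F, 0 < P.ord y := by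
  by_contra hcon
  push Not at hcon
  have hempty : zerosOf K y = ∅ := by
    ext v
    simp only [zerosOf, Set.mem_ofPred_eq, Set.mem_empty_iff_false, iff_false, not_lt]
    exact hcon v
  have h := hFF.sum_ord_zerosOf hy
  rw [hempty, finsum_mem_empty] at h
  have := hFF.finiteDimensional hy
  have hpos : 0 < Module.finrank K⟮y⟯ F := Module.finrank_pos
  omega

/-- there are at least two places. -/
theorem exists_place_ne [IsAlgClosed K] [CharZero K] (hFF : IsFF K F) (v : Place K F) :
    ∃ P : Place K F, P ≠ v := by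
  obtain ⟨x, hx, -⟩ := id hFF
  obtain ⟨P, hP⟩ := exists_zero hFF hx
  obtain ⟨Q, hQ⟩ := exists_zero hFF (transcendental_inv hx)
  rw [Place.ord_inv] at hQ
  by_cases h : P = v
  · refine ⟨Q, fun hQv => ?_⟩
    rw [hQv, ← h] at hQ
    omega
  · exact ⟨P, h⟩

/-- **RI-2.**  Every place is the unique zero of some function. -/
theorem exists_unique_zero [IsAlgClosed K] [CharZero K] (hFF : IsFF K F)
    (hR : ∃ E₀ : Divisor K F, (∀ v, 0 ≤ E₀ v) ∧ ∀ D : Divisor K F, Divisor.degree D = 0 →
      ∃ f : F, f ≠ 0 ∧ ∀ v : Place K F, 0 ≤ v.ord f + D v + E₀ v) (v : Place K F) :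
    ∃ y : F, Transcendental K y ∧ ∀ w : Place K F, 0 < w.ord y ↔ w = v := by
  classical
  obtain ⟨E₀, -, hE₀⟩ := hR
  obtain ⟨P, hP⟩ := exists_place_ne hFF v
  set d : ℤ := Divisor.degree E₀ with hd
  obtain ⟨g, hg0, hg⟩ := hE₀ (Finsupp.single v (d + 1) - E₀ - Finsupp.single P 1) (by
    rw [map_sub, map_sub, Divisor.degree_single, Divisor.degree_single, hFF.deg_eq_one,
      hFF.deg_eq_one, ← hd]
    push_cast
    ring)
  have hg' : ∀ w : Place K F, w ≠ v → (if w = P then (1 : ℤ) else 0) ≤ w.ord g := by
    intro w hw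
    have := hg w
    rw [Finsupp.sub_apply, Finsupp.sub_apply, Finsupp.single_apply, Finsupp.single_apply,
      if_neg (Ne.symm hw)] at this
    by_cases hwP : w = P
    · rw [if_pos hwP.symm] at this
      rw [if_pos hwP]
      omega
    · rw [if_neg (Ne.symm hwP)] at this
      rw [if_neg hwP]
      omega
  have hgP : 0 < P.ord g := by
    have := hg' P hP
    rw [if_pos rfl] at this
    omega
  have hgt : Transcendental K g := by
    apply transcendental_of_not_mem_range
    rintro ⟨c, rfl⟩
    rw [ord_algebraMap] at hgP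
    exact lt_irrefl _ hgP
  have hyt : Transcendental K g⁻¹ := transcendental_inv hgt
  have hle : ∀ w : Place K F, w ≠ v → w.ord g⁻¹ ≤ 0 := by
    intro w hw
    have := hg' w hw
    rw [Place.ord_inv]
    split_ifs at this <;> omega
  obtain ⟨Q, hQ⟩ := exists_zero hFF hyt
  have hQv : Q = v := by
    by_contra h
    have := hle Q h
    omega
  refine ⟨g⁻¹, hyt, fun w => ⟨fun hw => ?_, fun hw => ?_⟩⟩
  · by_contra h
    have := hle w h
    omega
  · rw [hw, ← hQv]
    exact hQ

end Fermat.Agent.S37.RI2
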