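import Fermat.Agent.S18.Riemann

/-!
# S37, piece RI3: weak approximation in a function field
-/

set_option autoImplicit false

namespace Fermat.Agent.S37.RI3

open AlgebraicCurve IntermediateField Fermat.Agent.S24 Fermat.Agent.S18 IsDedekindDomain

variable {K F : Type*} [Field K] [Field F] [Algebra K F]

/-- at most one constant `c` makes `x - c` vanish at `v`. -/
theorem eq_of_ord_sub_pos (v : Place K F) {x : F} {c c' : K}
    (h : 0 < v.ord (x - algebraMap K F c)) (h' : 0 < v.ord (x - algebraMap K F c')) : c = c' := by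
  by_contra hne
  have hcc : algebraMap K F (c' - c) ≠ 0 := by
    rw [Ne, map_eq_zero, sub_eq_zero]
    exact fun h => hne h.symm
  have e : (x - algebraMap K F c) + -(x - algebraMap K F c') = algebraMap K F (c' - c) := by
    rw [map_sub]; ring
  have h1 := le_ord_add v (f := x - algebraMap K F c) (g := -(x - algebraMap K F c'))
    (by rw [e]; exact hcc)
  rw [e, ord_algebraMap, ord_neg] at h1
  have : 0 < min (v.ord (x - algebraMap K F c)) (v.ord (x - algebraMap K F c')) := lt_min h h'
  omega

/-- a transcendental element which is regular at finitely many given places. -/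
theorem exists_regular [IsAlgClosed K] [CharZero K] (hFF : IsFF K F) (s : Finset (Place K F)) :
    ∃ y : F, Transcendental K y ∧ ∀ v ∈ s, y ∈ v.toValuationSubring := by
  classical
  obtain ⟨x, hx, -⟩ := id hFF
  have hbad : (⋃ v ∈ s, {c : K | 0 < v.ord (x - algebraMap K F c)}).Finite := by
    refine Set.Finite.biUnion s.finite_toSet fun v _ => ?_
    exact Set.Subsingleton.finite fun c hc c' hc' => eq_of_ord_sub_pos v hc hc'
  obtain ⟨c, hc⟩ := hbad.infinite_compl.nonempty
  have hxc : x - algebraMap K F c ≠ 0 := by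
    intro h
    apply hx
    rw [sub_eq_zero.mp h]
    exact isAlgebraic_algebraMap c
  have hy0 : (x - algebraMap K F c)⁻¹ ≠ 0 := inv_ne_zero hxc
  refine ⟨(x - algebraMap K F c)⁻¹, ?_, fun v hv => ?_⟩
  · apply transcendental_of_not_mem_range
    rintro ⟨a, ha⟩
    apply hx
    have : x = algebraMap K F (a⁻¹ + c) := by
      rw [map_add, map_inv₀, ha, inv_inv]; ring
    rw [this]
    exact isAlgebraic_algebraMap _
  · rw [← ord_nonneg_iff v hy0, Place.ord_inv]
    have : ¬ 0 < v.ord (x - algebraMap K F c) := by
      intro h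
      apply hc
      simp only [Set.mem_iUnion, Set.mem_ofPred_eq]
      exact ⟨v, hv, h⟩
    omega

/-- **RI-3 (weak approximation).** -/
theorem exists_ord_eq_one [IsAlgClosed K] [CharZero K] (hFF : IsFF K F) (s : Finset (Place K F))
    (w : Place K F) :
    ∃ t : F, t ≠ 0 ∧ w.ord t = 1 ∧ ∀ w' ∈ s, w' ≠ w → w'.ord t = 0 := by
  classical
  obtain ⟨y, hy, hreg⟩ := exists_regular hFF (insert w s)
  have := hFF.finiteDimensional hy
  have := isDedekindDomain_intRing (K := K) hy
  have := isFractionRing_intRing (K := K) hy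
  have hex : ∀ v : (insert w s : Finset (Place K F)), ∃ P : HeightOneSpectrum (intRing K y),
      (v : Place K F) = Place.ofHeightOneSpectrum (K := K) (F := F) P :=
    fun v => exists_heightOneSpectrum v.1 (hreg v.1 v.2)
  choose P hP using hex
  have hw : w ∈ insert w s := Finset.mem_insert_self w s
  obtain ⟨π, hπ⟩ := (P ⟨w, hw⟩).intValuation_exists_uniformizer
  obtain ⟨t, ht⟩ := IsDedekindDomain.exists_forall_sub_mem_ideal
    (s := (Finset.univ : Finset (insert w s : Finset (Place K F))))
    (fun v => (P v).asIdeal) (fun _ => 2) (fun v _ => (P v).prime)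
    (fun i _ j _ hij h => hij (Subtype.ext (by
      rw [hP i, hP j, HeightOneSpectrum.ext h])))
    (fun v => if (v : (insert w s : Finset (Place K F))).1 = w then π else 1)
  have hval : ∀ v : (insert w s : Finset (Place K F)), ∀ f : F,
      (v : Place K F).ord f = -(WithZero.log ((P v).valuation F f)) := by
    intro v f
    conv_lhs => rw [hP v]
    exact ord_ofHeightOneSpectrum (P v) f
  have h1 : w.ord (t : F) = 1 := by
    have h := ht ⟨w, hw⟩ (Finset.mem_univ _)
    simp only [if_true] at h
    rw [← (P ⟨w, hw⟩).intValuation_le_pow_iff_mem] at h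
    have hlt : (P ⟨w, hw⟩).intValuation (t - π) < (P ⟨w, hw⟩).intValuation π := by
      rw [hπ]
      refine lt_of_le_of_lt h ?_
      rw [WithZero.exp_lt_exp]
      norm_num
    have ht' : (P ⟨w, hw⟩).intValuation t = WithZero.exp (-1 : ℤ) := by
      have : t = π + (t - π) := by ring
      rw [this, Valuation.map_add_eq_of_lt_left _ hlt, hπ]
    have e : (t : F) = algebraMap (intRing K y) F t := rfl
    rw [hval ⟨w, hw⟩, e, HeightOneSpectrum.valuation_of_algebraMap, ht', WithZero.log_exp]
    norm_num
  refine ⟨t, ?_, h1, fun w' hw' hne => ?_⟩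
  · intro h0
    rw [h0, Place.ord_zero] at h1
    exact zero_ne_one h1
  · have hw's : w' ∈ insert w s := Finset.mem_insert_of_mem hw'
    have h := ht ⟨w', hw's⟩ (Finset.mem_univ _)
    simp only [if_neg hne] at h
    have h2 : t - 1 ∈ (P ⟨w', hw's⟩).asIdeal := Ideal.pow_le_self (by norm_num) h
    rw [← (P ⟨w', hw's⟩).intValuation_lt_one_iff_mem] at h2
    have ht' : (P ⟨w', hw's⟩).intValuation t = 1 := by
      have : t = 1 + (t - 1) := by ring
      rw [this, Valuation.map_one_add_of_lt _ h2]
    have e : (t : F) = algebraMap (intRing K y) F t := rfl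
    rw [hval ⟨w', hw's⟩, e, HeightOneSpectrum.valuation_of_algebraMap, ht', WithZero.log_one]
    norm_num

end Fermat.Agent.S37.RI3
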