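import Fermat.Agent.S18.Riemann
import Fermat.Agent.S37.RI1
import Fermat.Agent.S37.RI2
import Fermat.Agent.S37.RI3
import Fermat.Agent.S37.RI1
import Fermat.Agent.S37.RI2
import Fermat.Agent.S37.RI3

/-!
# S37, piece RI: a uniform Riemann bound for function fields (`K` algebraically closed, characteristic `0`)
-/

set_option autoImplicit false

namespace Fermat.Agent.S37

open AlgebraicCurve IntermediateField Fermat.Agent.S24 Fermat.Agent.S18

variable {K F : Type*} [Field K] [Field F] [Algebra K F]

/-- principal divisors exist (`IsFF.finite_ord_ne_zero`, `IsFF.degree_eq_zero_of_principal`). -/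
theorem hasPrincipalDivisors_of_isFF [IsAlgClosed K] [CharZero K] (hFF : IsFF K F) :
    HasPrincipalDivisors K F :=
  RI1.hasPrincipalDivisors_of_isFF hFF

/-- **RI-1 (uniform Riemann).**  There is an effective divisor `E₀` such that `L(D + E₀) ≠ 0` for EVERY divisor `D` of degree `0`.

Proof: copy the proof of `S18.riemann_lower` (file `S18/Riemann.lean`), whose `n₀ = N₀` only depends on `x`
(`exists_isIntBasis`, `exists_transition`, `finrank_Lsp`), with an arbitrary `E := D` of degree `0` instead of `div u / m`.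
`E₀ := N₀ (x)₀` (i.e. `E₀ v = N₀ * max (ord_v x) 0`, `RI.Dab x N₀ 0`).
The only change: one needs `h₁ ∈ intRing K x`, `h₁ ≠ 0`, with `D v ≤ ord_v h₁` at all places where `x` is regular; take
`h₁ = ∏_{v ∈ supp D, x regular at v} (x - x(v))^{(D v).toNat}` (`IsFF.exists_residue` gives `x(v)`).
Then `B v := ord_v h₁ + e max (-ord_v x) 0 ≥ D v`, `L(Dab n 0 + B) ≃ Lsp n e` (multiplication by `h₁`),
`dim Lsp n e = dim Lsp n 0 + e μ`, `deg (B - D) = e μ` and `RI.finrank_LDiv_le` give
`dim L(Dab n 0 + D) ≥ dim Lsp n 0 ≥ 1` (`1 ∈ Lsp n 0`). -/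
theorem exists_riemann_bound [IsAlgClosed K] [CharZero K] (hFF : IsFF K F) :
    ∃ E₀ : Divisor K F, (∀ v, 0 ≤ E₀ v) ∧ ∀ D : Divisor K F, Divisor.degree D = 0 →
      ∃ f : F, f ≠ 0 ∧ ∀ v : Place K F, 0 ≤ v.ord f + D v + E₀ v :=
  RI1.exists_riemann_bound hFF

/-- there are at least two places (e.g. a zero and a pole of a transcendental element:
`IsFF.sum_ord_zerosOf` is `> 0`). -/
theorem exists_place_ne [IsAlgClosed K] [CharZero K] (hFF : IsFF K F) (v : Place K F) :
    ∃ P : Place K F, P ≠ v :=
  RI2.exists_place_ne hFF v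

/-- **RI-2.**  Every place is the unique zero of some function.

Proof: `E₀` from RI-1, `d = deg E₀`, `P ≠ v`, `D := (d+1) v - E₀ - P` has degree `0`; `g ≠ 0` with
`div g + (d+1) v - P ≥ 0`: `g` has a zero at `P` (so it is not constant: `ord_algebraMap`) and no pole outside `v`.  `y := g⁻¹`:
`ord_w y ≤ 0` for `w ≠ v`; `y` transcendental has a zero (`IsFF.sum_ord_zerosOf` `> 0`), which must be `v`. -/
theorem exists_unique_zero [IsAlgClosed K] [CharZero K] (hFF : IsFF K F) (v : Place K F) :
    ∃ y : F, Transcendental K y ∧ ∀ w : Place K F, 0 < w.ord y ↔ w = v :=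
  RI2.exists_unique_zero hFF (exists_riemann_bound hFF) v

/-- **RI-3 (weak approximation).**  Proof: choose `y` transcendental, regular at all places of `s`
(`y = (x - c)⁻¹`, `c` different from the finitely many values `x(w)`, or `y = x⁻¹`-type case distinction); the places of `s` are
`Place.ofHeightOneSpectrum P_w` for maximal ideals `P_w` of the Dedekind domain `intRing K y` (`S24.exists_heightOneSpectrum`);
Chinese remainder theorem `IsDedekindDomain.exists_forall_sub_mem_ideal` with `π ∈ P_w \ P_w²` modulo `P_w²` and `1` modulo the other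
`P_{w'}`; translate with `S24.fund_ord_eq_count` / `fund_ord_pos_iff_mem`. -/
theorem exists_ord_eq_one [IsAlgClosed K] [CharZero K] (hFF : IsFF K F) (s : Finset (Place K F))
    (w : Place K F) :
    ∃ t : F, t ≠ 0 ∧ w.ord t = 1 ∧ ∀ w' ∈ s, w' ≠ w → w'.ord t = 0 :=
  RI3.exists_ord_eq_one hFF s w

end Fermat.Agent.S37
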