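import Fermat.Agent.S37.FFNorm
import Fermat.Agent.S24.Expand
import Fermat.Prelude.Def_ModularCurve_HeckeModule

/-!
# S37, piece HI1: the inputs of the Prelude's Hecke operator hold for `ℚ̄(X₀(N)) ⇉ ℚ̄(X₀(Nℓ))`
-/

set_option autoImplicit false

namespace Fermat.Agent.S37.HI1

open AlgebraicCurve ModularCurve IntermediateField Fermat.Agent.S24 Fermat.Agent.S18

section general

variable {K F F' : Type*} [Field K] [Field F] [Field F'] [Algebra K F] [Algebra K F']

theorem finiteAlong_of_isFF (hF : IsFF K F) (hF' : IsFF K F') (φ : F →ₐ[K] F') :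
    FiniteAlong K φ := by
  letI := algebraAlong φ
  haveI := isScalarTower_along φ
  exact finite_of_isFF hF hF'

theorem isIntegral_of_isFF (hF : IsFF K F) (hF' : IsFF K F') (φ : F →ₐ[K] F') :
    φ.toRingHom.IsIntegral := by
  letI := algebraAlong φ
  haveI := isScalarTower_along φ
  haveI : Module.Finite F F' := finite_of_isFF hF hF'
  exact (inferInstance : Algebra.IsIntegral F F').isIntegral

theorem fundamentalIdentityAlong_of_isFF [IsAlgClosed K] [CharZero K] (hF : IsFF K F)
    (hF' : IsFF K F') [HasPrincipalDivisors K F'] (φ : F →ₐ[K] F')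
    (hφ : φ.toRingHom.IsIntegral) : FundamentalIdentityAlong K φ hφ := by
  letI := algebraAlong φ
  haveI := isScalarTower_along φ
  haveI := isIntegral_along φ hφ
  exact fundamentalIdentity_of_isFF hF hF'

theorem normFormulaAlong_of_isFF [IsAlgClosed K] [CharZero K] (hF : IsFF K F)
    (hF' : IsFF K F') (φ : F →ₐ[K] F') (hfin : FiniteAlong K φ) : NormFormulaAlong K φ hfin := by
  letI := algebraAlong φ
  haveI := isScalarTower_along φ
  haveI : Module.Finite F F' := hfin
  exact pushforwardNormFormula_of_isFF hF hF'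

end general

variable (N ℓ : ℕ) [NeZero N] [NeZero ℓ]

theorem neZero_mul : NeZero (N * ℓ) := ⟨mul_ne_zero (NeZero.ne N) (NeZero.ne ℓ)⟩

theorem hasPrincipalDivisors_FN : HasPrincipalDivisors Kb (FN N) :=
  hasPrincipalDivisors_of_isFF (isFF_FN N)

theorem heckeAlphaBarIntegral : HeckeAlphaBarIntegral Kb N ℓ :=
  haveI := neZero_mul N ℓ
  isIntegral_of_isFF (isFF_FN N) (isFF_FN (N * ℓ)) _

theorem heckeBetaBarIntegral : HeckeBetaBarIntegral Kb N ℓ :=
  haveI := neZero_mul N ℓ
  isIntegral_of_isFF (isFF_FN N) (isFF_FN (N * ℓ)) _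

theorem finiteAlong_alpha : FiniteAlong Kb (heckeAlphaBar Kb N ℓ) :=
  haveI := neZero_mul N ℓ
  finiteAlong_of_isFF (isFF_FN N) (isFF_FN (N * ℓ)) _

theorem fundamentalIdentityAlong_beta :
    haveI := neZero_mul N ℓ
    haveI := hasPrincipalDivisors_FN (N * ℓ)
    FundamentalIdentityAlong Kb (heckeBetaBar Kb N ℓ) (heckeBetaBarIntegral N ℓ) :=
  haveI := neZero_mul N ℓ
  haveI := hasPrincipalDivisors_FN (N * ℓ)
  fundamentalIdentityAlong_of_isFF (isFF_FN N) (isFF_FN (N * ℓ)) _ _

theorem normFormulaAlong_alpha :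
    NormFormulaAlong Kb (heckeAlphaBar Kb N ℓ) (finiteAlong_alpha N ℓ) :=
  haveI := neZero_mul N ℓ
  normFormulaAlong_of_isFF (isFF_FN N) (isFF_FN (N * ℓ)) _ _

end Fermat.Agent.S37.HI1
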