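import Fermat.Agent.S37.FFNorm
import Fermat.Agent.S37.HI1
import Fermat.Agent.S37.Bounded
import Fermat.Agent.S24.Expand
import Fermat.Prelude.Def_ModularCurve_HeckeModule

/-!
# S37, piece HI: the inputs of the Prelude's Hecke operator hold for `ℚ̄(X₀(N)) ⇉ ℚ̄(X₀(Nℓ))`
-/

set_option autoImplicit false

namespace Fermat.Agent.S37

open AlgebraicCurve ModularCurve IntermediateField Fermat.Agent.S24 Fermat.Agent.S18

variable (N ℓ : ℕ) [NeZero N] [NeZero ℓ]

instance instNeZeroMul : NeZero (N * ℓ) := ⟨mul_ne_zero (NeZero.ne N) (NeZero.ne ℓ)⟩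

/-- (`hasPrincipalDivisors_of_isFF`, `S24.isFF_FN`.) -/
theorem hasPrincipalDivisors_FN : HasPrincipalDivisors Kb (FN N) :=
  HI1.hasPrincipalDivisors_FN N

/-- `ℚ̄(X₀(Nℓ))` is algebraic over `ℚ̄(j)`, `j ∈ α(F_N)`. -/
theorem heckeAlphaBarIntegral : HeckeAlphaBarIntegral Kb N ℓ :=
  HI1.heckeAlphaBarIntegral N ℓ

/-- `ℚ̄(X₀(Nℓ))` is algebraic over `ℚ̄(β j)`; `β j = j(q^ℓ)` is transcendental (`β` is injective) (`IsFF.finiteDimensional`). -/
theorem heckeBetaBarIntegral : HeckeBetaBarIntegral Kb N ℓ :=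
  HI1.heckeBetaBarIntegral N ℓ

theorem finiteAlong_alpha : FiniteAlong Kb (heckeAlphaBar Kb N ℓ) :=
  HI1.finiteAlong_alpha N ℓ

theorem fundamentalIdentityAlong_beta :
    haveI := hasPrincipalDivisors_FN (N * ℓ)
    FundamentalIdentityAlong Kb (heckeBetaBar Kb N ℓ) (heckeBetaBarIntegral N ℓ) :=
  HI1.fundamentalIdentityAlong_beta N ℓ

theorem normFormulaAlong_alpha :
    NormFormulaAlong Kb (heckeAlphaBar Kb N ℓ) (finiteAlong_alpha N ℓ) :=
  HI1.normFormulaAlong_alpha N ℓ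

theorem heckeInputsAlong : HeckeInputsAlong Kb N ℓ :=
  ⟨heckeAlphaBarIntegral N ℓ, heckeBetaBarIntegral N ℓ, hasPrincipalDivisors_FN (N * ℓ),
    finiteAlong_alpha N ℓ, fundamentalIdentityAlong_beta N ℓ, normFormulaAlong_alpha N ℓ⟩

/-- `T_ℓ` on divisors. -/
noncomputable def TDiv : Divisor Kb (FN N) →+ Divisor Kb (FN N) :=
  haveI := hasPrincipalDivisors_FN (N * ℓ)
  heckeDivBar (heckeAlphaBarIntegral N ℓ) (heckeBetaBarIntegral N ℓ)

/-- the norm of `ℚ̄(X₀(Nℓ))` over `α(ℚ̄(X₀(N)))`. -/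
noncomputable def normAlpha : FN (N * ℓ) →* FN N :=
  letI := algebraAlong (heckeAlphaBar Kb N ℓ)
  Algebra.norm (FN N)

theorem degree_TDiv (D : Divisor Kb (FN N)) (hD : Divisor.degree D = 0) :
    Divisor.degree (TDiv N ℓ D) = 0 := by
  haveI := hasPrincipalDivisors_FN (N * ℓ)
  have h := Divisor.degree_correspondence (heckeBetaBar Kb N ℓ) (heckeAlphaBar Kb N ℓ)
    (heckeBetaBarIntegral N ℓ) (heckeAlphaBarIntegral N ℓ) (fundamentalIdentityAlong_beta N ℓ) D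
  rw [hD, mul_zero] at h
  exact h

/-- `T_ℓ (div f) = div (N_α (β f))` (`Divisor.pullback_apply_eq_ord`, `normFormulaAlong_alpha`). -/
theorem TDiv_apply_of_isDiv {f : FN N} (hf : f ≠ 0) {D : Divisor Kb (FN N)}
    (hD : ∀ v, D v = v.ord f) (v : Place Kb (FN N)) :
    TDiv N ℓ D v = v.ord (normAlpha N ℓ (heckeBetaBar Kb N ℓ f)) := by
  haveI := hasPrincipalDivisors_FN (N * ℓ)
  have hβf : heckeBetaBar Kb N ℓ f ≠ 0 := (map_ne_zero _).mpr hf
  have h1 : ∀ w, Divisor.pullbackAlong (heckeBetaBar Kb N ℓ) (heckeBetaBarIntegral N ℓ) D w =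
      w.ord (heckeBetaBar Kb N ℓ f) := by
    intro w
    have hβ : (heckeBetaBar Kb N ℓ).toRingHom.IsIntegral := heckeBetaBarIntegral N ℓ
    have e1 := Divisor.pullbackAlong_apply (heckeBetaBar Kb N ℓ) hβ D w
    have e2 := Place.ord_restrictAlong (heckeBetaBar Kb N ℓ) hβ w f
    rw [hD] at e1
    exact e1.trans e2.symm
  exact normFormulaAlong_alpha N ℓ _ hβf _ h1 v

/-- `T_ℓ v = ∑_{w | v (β)} e_w α(w)` has norm `≤ ∑ e_w = [F_{Nℓ} : β F_N]`
(`Divisor.pullbackAlong_single`, `Divisor.pushforwardAlong_single`, `inertiaDeg_eq_one`, `sum_ramificationIndex`, `nrm_sum_le`). -/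
theorem nrm_TDiv_single_le (v : Place Kb (FN N)) :
    nrm (TDiv N ℓ (Finsupp.single v 1)) ≤ finrankAlong Kb (heckeBetaBar Kb N ℓ) := by
  haveI := hasPrincipalDivisors_FN (N * ℓ)
  have hβ : (heckeBetaBar Kb N ℓ).toRingHom.IsIntegral := heckeBetaBarIntegral N ℓ
  have hα : (heckeAlphaBar Kb N ℓ).toRingHom.IsIntegral := heckeAlphaBarIntegral N ℓ
  have h1 : TDiv N ℓ (Finsupp.single v 1) =
      ∑ W ∈ Place.fiberAlong (heckeBetaBar Kb N ℓ) hβ v,
        Finsupp.single (W.restrictAlong (heckeAlphaBar Kb N ℓ) hα)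
          ((1 * (W.ramificationIndexAlong (heckeBetaBar Kb N ℓ) : ℤ)) *
            (W.inertiaDegAlong (heckeAlphaBar Kb N ℓ) hα : ℤ)) := by
    have e1 : TDiv N ℓ (Finsupp.single v 1) = Divisor.pushforwardAlong (heckeAlphaBar Kb N ℓ) hα
        (Divisor.pullbackAlong (heckeBetaBar Kb N ℓ) hβ (Finsupp.single v 1)) := rfl
    rw [e1, Divisor.pullbackAlong_single, map_sum]
    exact Finset.sum_congr rfl fun W _ => Divisor.pushforwardAlong_single _ hα W _
  rw [h1]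
  refine (nrm_sum_le _ _).trans ?_
  have h2 : ∀ W : Place Kb (FN (N * ℓ)), W.inertiaDegAlong (heckeAlphaBar Kb N ℓ) hα = 1 := by
    intro W
    letI := algebraAlong (heckeAlphaBar Kb N ℓ)
    haveI := isScalarTower_along (heckeAlphaBar Kb N ℓ)
    haveI := isIntegral_along (heckeAlphaBar Kb N ℓ) hα
    exact inertiaDeg_eq_one (isFF_FN N) (isFF_FN (N * ℓ)) W
  have h3 : ∑ W ∈ Place.fiberAlong (heckeBetaBar Kb N ℓ) hβ v,
      W.ramificationIndexAlong (heckeBetaBar Kb N ℓ) = finrankAlong Kb (heckeBetaBar Kb N ℓ) := by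
    letI := algebraAlong (heckeBetaBar Kb N ℓ)
    haveI := isScalarTower_along (heckeBetaBar Kb N ℓ)
    haveI := isIntegral_along (heckeBetaBar Kb N ℓ) hβ
    exact sum_ramificationIndex (isFF_FN N) (isFF_FN (N * ℓ)) v
  rw [← h3]
  refine le_of_eq (Finset.sum_congr rfl fun W _ => ?_)
  rw [nrm_single, h2]
  simp

end Fermat.Agent.S37

namespace Fermat.Agent.S37

open AlgebraicCurve ModularCurve IntermediateField Fermat.Agent.S24 Fermat.Agent.S18

/-- the Hecke module structure on classes of divisors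
(`heckeModuleBar_heckeGen_smul`, `heckeOperatorBar_apply`, `heckeOperatorAlong_eq`, `Pic0.correspondence_mk`). -/
theorem heckeGen_smul_mk (N : ℕ) [NeZero N] (hcomm : HeckeOperatorsCommuteBar N) (ℓ : Nat.Primes)
    (D : Divisor.degZero (K := Kb) (F := FN N)) :
    haveI : NeZero (ℓ : ℕ) := ⟨ℓ.2.ne_zero⟩
    letI := heckeModuleBar N
    heckeGen ℓ • (Pic0.mk D : JZero N) =
      Pic0.mk ⟨TDiv N ℓ D, degree_TDiv N ℓ D D.2⟩ := by
  haveI : NeZero (ℓ : ℕ) := ⟨ℓ.2.ne_zero⟩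
  haveI := hasPrincipalDivisors_FN (N * ℓ)
  rw [heckeModuleBar_heckeGen_smul hcomm, heckeOperatorBar_apply,
    heckeOperatorAlong_eq (heckeAlphaBarIntegral N ℓ) (heckeBetaBarIntegral N ℓ)
      (fundamentalIdentityAlong_beta N ℓ) (finiteAlong_alpha N ℓ) (normFormulaAlong_alpha N ℓ)]
  rfl

end Fermat.Agent.S37
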