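import Fermat.Agent.S29.ANHecke
import Fermat.Agent.S29.ANBridge
import Fermat.Agent.S29.ANQuot
import Fermat.Agent.GR.FormalHecke

/-!
# S37, piece M: the multiplicative Hecke operator preserves `ℚ̄(X₀(N))`
-/

set_option autoImplicit false

namespace Fermat.Agent.S37.M19

open ModularCurve Fermat.Agent.S24 Fermat.Agent.GR Fermat.Agent.S29 Fermat.Agent.S20
  CongruenceSubgroup

theorem Mop_mem_FN {N : ℕ} [NeZero N] {ℓ : ℕ} [NeZero ℓ] (hℓ : ℓ.Prime) (hℓN : ¬ ℓ ∣ N) {ζ : Kbˣ}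
    (hζ : IsPrimitiveRoot ζ ℓ) {g : LaurentSeries Kb} (hg : g ∈ FN N) : Mop ζ ℓ g ∈ FN N := by
  have : Fact ℓ.Prime := ⟨hℓ⟩
  obtain ⟨k, G, D, hG, hD, hD0, hs⟩ := isQuot_of_mem N hg
  have hℓ0 : ℓ ≠ 0 := NeZero.ne ℓ
  have hprim : IsPrimitiveRoot (Complex.exp (2 * Real.pi * Complex.I / ℓ)) ℓ :=
    Complex.isPrimitiveRoot_exp ℓ hℓ0
  set ζc : ℂˣ := hprim.isUnit hℓ0 |>.unit with hζc
  have hζc' : (ζc : ℂ) = Complex.exp (2 * Real.pi * Complex.I / ℓ) := rfl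
  have hζcp : IsPrimitiveRoot ζc ℓ := by
    rw [← IsPrimitiveRoot.coe_units_iff]; exact hprim
  have hζi : IsPrimitiveRoot (Units.map (iota : Kb →* ℂ) ζ) ℓ :=
    hζ.map_of_injective (Units.map_injective iota_injective)
  have nG : G ∈ Fermat.Agent.S23.Nice := mem_Nice_of_mem_MFs_Gamma0 hG
  have nD : D ∈ Fermat.Agent.S23.Nice := mem_Nice_of_mem_MFs_Gamma0 hD
  have key : iotaL (Mop ζ ℓ g) * qLf (TTm ℓ D) = qLf (TTm ℓ G) := by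
    rw [qLf_TTm nD ζc hζc', qLf_TTm nG ζc hζc', iotaL, coeffMap_Mop,
      Mop_eq_of_isPrimitiveRoot hζi hζcp, ← Mop_mul hζcp]
    exact congrArg _ hs
  exact mem_FN_of_quot N (TTm_mem_MFs (ℓ := ℓ) hℓN hG) (TTm_mem_MFs (ℓ := ℓ) hℓN hD)
    (TTm_ne_zero hℓ0 hD.1 hD0) key

end Fermat.Agent.S37.M19
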