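import Fermat.Agent.GR.FormalHecke
import Fermat.Agent.S24.MDefs
import Fermat.Prelude.Def_ModularCurve_HeckeModule

/-!
# S37, piece NMP: the polynomial `P_g = (X - g(q^ℓ)) ∏_{b<ℓ} (X - g(ζ^b q^{1/ℓ}))` has coefficients in `F_N`
-/

set_option autoImplicit false

namespace Fermat.Agent.S37.NMP

open AlgebraicCurve ModularCurve IntermediateField Polynomial Fermat.Agent.S24 Fermat.Agent.S28
  Fermat.Agent.GR

/-- the polynomial `Q = (X - g(t^{ℓ²})) ∏_{i<ℓ} (X - g(ζ^i t))`. -/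
noncomputable def Qpol (ζ : Kbˣ) (ℓ : ℕ) [NeZero ℓ] (g : LaurentSeries Kb) : (LaurentSeries Kb)[X] :=
  (X - C (qExpand Kb ℓ (qExpand Kb ℓ g))) * ∏ i ∈ Finset.range ℓ, (X - C (scale (ζ ^ i) g))

theorem Qpol_monic (ζ : Kbˣ) (ℓ : ℕ) [NeZero ℓ] (g : LaurentSeries Kb) : (Qpol ζ ℓ g).Monic :=
  (monic_X_sub_C _).mul (monic_prod_of_monic _ _ fun _ _ => monic_X_sub_C _)

theorem Qpol_natDegree (ζ : Kbˣ) (ℓ : ℕ) [NeZero ℓ] (g : LaurentSeries Kb) :
    (Qpol ζ ℓ g).natDegree = ℓ + 1 := by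
  rw [Qpol, Monic.natDegree_mul (monic_X_sub_C _)
    (monic_prod_of_monic _ _ fun _ _ => monic_X_sub_C _), natDegree_X_sub_C,
    natDegree_prod_of_monic _ _ fun _ _ => monic_X_sub_C _]
  simp [add_comm]

theorem qExpand_Mop {ζ : Kbˣ} {ℓ : ℕ} [NeZero ℓ] (hζ : IsPrimitiveRoot ζ ℓ)
    (Y : LaurentSeries Kb) :
    qExpand Kb ℓ (Mop ζ ℓ Y) = qExpand Kb ℓ (qExpand Kb ℓ Y) * Pop ζ ℓ Y := by
  rw [Mop, map_mul, qExpand_Uop_Pop hζ]

theorem eval_Qpol {ζ : Kbˣ} {ℓ : ℕ} [NeZero ℓ] (hζ : IsPrimitiveRoot ζ ℓ) (g : LaurentSeries Kb)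
    (c : Kb) :
    (Qpol ζ ℓ g).eval (HahnSeries.C c) = qExpand Kb ℓ (Mop ζ ℓ (HahnSeries.C c - g)) := by
  rw [qExpand_Mop hζ, Qpol, eval_mul, eval_prod, Pop]
  simp only [eval_sub, eval_X, eval_C, map_sub, qExpand_C, scale_C]


/-- the embedding `F_N → ℚ̄((t))`, `q = t^ℓ`. -/
noncomputable def phi (N ℓ : ℕ) [NeZero ℓ] : FN N →+* LaurentSeries Kb :=
  (qExpand Kb ℓ).comp (algebraMap (FN N) (LaurentSeries Kb))

theorem phi_apply (N ℓ : ℕ) [NeZero ℓ] (x : FN N) :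
    phi N ℓ x = qExpand Kb ℓ (x : LaurentSeries Kb) := rfl

theorem phi_comp_alpha (N ℓ : ℕ) [NeZero N] [NeZero ℓ] :
    (phi (N * ℓ) ℓ).comp (heckeAlphaBar Kb N ℓ).toRingHom = phi N ℓ := by
  refine RingHom.ext fun x => ?_
  rw [RingHom.comp_apply, phi_apply, phi_apply]
  exact congrArg (qExpand Kb ℓ) (coe_heckeAlphaBar N ℓ x)

theorem phi_aeval (N ℓ : ℕ) [NeZero N] [NeZero ℓ] (P : (FN N)[X]) (y : FN (N * ℓ)) :
    phi (N * ℓ) ℓ (letI := algebraAlong (heckeAlphaBar Kb N ℓ); aeval y P) =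
      (P.map (phi N ℓ)).eval (phi (N * ℓ) ℓ y) := by
  letI := algebraAlong (heckeAlphaBar Kb N ℓ)
  rw [eval_map, aeval_def, Polynomial.hom_eval₂, RingHom.algebraMap_toAlgebra, phi_comp_alpha]

/-- interpolation step. -/
theorem exists_map_eq_Qpol {N ℓ : ℕ} [NeZero N] [NeZero ℓ] {ζ : Kbˣ} (hζ : IsPrimitiveRoot ζ ℓ)
    (hM : ∀ g : LaurentSeries Kb, g ∈ FN N → Mop ζ ℓ g ∈ FN N) (g : FN N) :
    ∃ P : (FN N)[X], P.map (phi N ℓ) = Qpol ζ ℓ (g : LaurentSeries Kb) := by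
  classical
  have hφinj : Function.Injective (phi N ℓ) := (phi N ℓ).injective
  have hCmem : ∀ i : ℕ, HahnSeries.C (i : Kb) - (g : LaurentSeries Kb) ∈ FN N := by
    intro i
    rw [map_natCast]
    exact sub_mem (_root_.natCast_mem _ i) g.2
  set v : ℕ → FN N := fun i => (i : FN N) with hv
  set r : ℕ → FN N :=
    fun i => ⟨Mop ζ ℓ (HahnSeries.C (i : Kb) - (g : LaurentSeries Kb)), hM _ (hCmem i)⟩ with hr
  set s : Finset ℕ := Finset.range (ℓ + 2) with hs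
  have hvs : Set.InjOn v s := fun a _ b _ h => Nat.cast_injective h
  have hvs' : Set.InjOn (fun i : ℕ => phi N ℓ (v i)) s := fun a ha b hb h => hvs ha hb (hφinj h)
  have hcard : s.card = ℓ + 2 := Finset.card_range _
  refine ⟨Lagrange.interpolate s v r, ?_⟩
  apply Polynomial.eq_of_degrees_lt_of_eval_index_eq s hvs'
  · rw [degree_map_eq_of_injective hφinj]
    exact Lagrange.degree_interpolate_lt r hvs
  · rw [degree_eq_natDegree (Qpol_monic ζ ℓ _).ne_zero, Qpol_natDegree, hcard]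
    exact_mod_cast Nat.lt_succ_self _
  · intro i hi
    have h2 : phi N ℓ (v i) = HahnSeries.C (i : Kb) := by
      rw [hv, map_natCast, map_natCast]
    rw [eval_map_apply, Lagrange.eval_interpolate_at_node r hvs hi, h2, eval_Qpol hζ, phi_apply]

/-- **NM-P** (with `Mop_mem_FN` as a hypothesis). -/
theorem exists_poly_beta' {N ℓ : ℕ} [NeZero N] [NeZero ℓ] {ζ : Kbˣ} (hζ : IsPrimitiveRoot ζ ℓ)
    (hM : ∀ g : LaurentSeries Kb, g ∈ FN N → Mop ζ ℓ g ∈ FN N) (g : FN N) :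
    ∃ P : (FN N)[X], P.Monic ∧ P.natDegree = ℓ + 1 ∧
      (letI := algebraAlong (heckeAlphaBar Kb N ℓ)
       aeval (heckeBetaBar Kb N ℓ g) P = 0) ∧
      ((P.coeff 0 : FN N) : LaurentSeries Kb) = (-1) ^ (ℓ + 1) * Mop ζ ℓ (g : LaurentSeries Kb) := by
  obtain ⟨P, hPQ⟩ := exists_map_eq_Qpol hζ hM g
  have hφinj : Function.Injective (phi N ℓ) := (phi N ℓ).injective
  have hmonic : P.Monic := by
    apply monic_of_injective hφinj
    rw [hPQ]
    exact Qpol_monic ζ ℓ _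
  refine ⟨P, hmonic, ?_, ?_, ?_⟩
  · rw [← natDegree_map_eq_of_injective hφinj, hPQ, Qpol_natDegree]
  · apply (phi (N * ℓ) ℓ).injective
    rw [phi_aeval, hPQ, map_zero, phi_apply, coe_heckeBetaBar, Qpol, eval_mul, eval_sub, eval_X,
      eval_C, sub_self, zero_mul]
  · apply qExpand_injective (R := Kb) ℓ
    have h1 : qExpand Kb ℓ ((P.coeff 0 : FN N) : LaurentSeries Kb) = (P.map (phi N ℓ)).coeff 0 := by
      rw [coeff_map, phi_apply]
    rw [h1, hPQ, coeff_zero_eq_eval_zero]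
    have h0 : (0 : LaurentSeries Kb) = HahnSeries.C (0 : Kb) := by rw [map_zero]
    rw [h0, eval_Qpol hζ, map_zero, zero_sub]
    congr 1
    have h3 : -(g : LaurentSeries Kb) = HahnSeries.C (-1 : Kb) * (g : LaurentSeries Kb) := by
      rw [map_neg, map_one]; ring
    rw [h3, Mop_mul hζ, Mop_C, map_pow, map_neg, map_one]

end Fermat.Agent.S37.NMP
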